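import Fermat.Agent.Corollaries.K4.Dioph
import Fermat.Agent.Corollaries.GenusZero

/-!
# Corollaries, K4: the equations of Serre and Ribet, from `SerreFrey p`

All theorems of this file have the hypothesis `SerreFrey p`, which is a theorem for `p = 11` and for the primes
`p ≥ 17` (`K4/Main.lean`).
-/

set_option autoImplicit false

open CongruenceSubgroup

namespace Fermat.Agent.Cor

theorem noForm_of_mem {N : ℕ} [NeZero N] (h : N ∈ zeroLevels) : NoForm N := fun f =>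
  eq_zero_of_mem h f

theorem noForm_one : NoForm 1 := noForm_of_mem (by decide)
theorem noForm_two : NoForm 2 := noForm_of_mem (by decide)
theorem noForm_three : NoForm 3 := noForm_of_mem (by decide)
theorem noForm_five : NoForm 5 := noForm_of_mem (by decide)
theorem noForm_six : NoForm 6 := noForm_of_mem (by decide)
theorem noForm_seven : NoForm 7 := noForm_of_mem (by decide)
theorem noForm_ten : NoForm 10 := noForm_of_mem (by decide)
theorem noForm_thirteen : NoForm 13 := noForm_of_mem (by decide)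

/-- the primes `L` with no form of level `L` and `2 L` -/
theorem noForm_of_le_five {L : ℕ} (hL : L = 1 ∨ L = 3 ∨ L = 5) :
    (L = 1 ∨ L.Prime) ∧ L % 2 = 1 ∧ NoForm L ∧ NoForm (L * 2) := by
  rcases hL with rfl | rfl | rfl
  · exact ⟨Or.inl rfl, rfl, noForm_one, noForm_two⟩
  · exact ⟨Or.inr Nat.prime_three, rfl, noForm_three, noForm_six⟩
  · exact ⟨Or.inr Nat.prime_five, rfl, noForm_five, noForm_ten⟩

variable {p : ℕ}

/-- **Three terms**: `± 2 ^ k₁ L ^ m₁ x ^ p ± 2 ^ k₂ L ^ m₂ y ^ p ± 2 ^ k₃ L ^ m₃ z ^ p ≠ 0`, `L = 1, 3, 5`, `x y z ≠ 0`,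
unless two of the `k_i` are equal modulo `p` and the third exceeds them by `1`, `2` or `3`. -/
theorem three_terms (hSF : SerreFrey p) {L : ℕ} (hL : L = 1 ∨ L = 3 ∨ L = 5)
    {k₁ k₂ k₃ m₁ m₂ m₃ : ℕ}
    (hk : ∀ r : ℕ, r = 1 ∨ r = 2 ∨ r = 3 →
      ¬ (k₁ % p = (r + k₂) % p ∧ k₂ % p = k₃ % p) ∧
      ¬ (k₂ % p = (r + k₁) % p ∧ k₁ % p = k₃ % p) ∧
      ¬ (k₃ % p = (r + k₁) % p ∧ k₁ % p = k₂ % p))
    {x y z : ℤ} (hx : x ≠ 0) (hy : y ≠ 0) (hz : z ≠ 0) :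
    2 ^ k₁ * (L : ℤ) ^ m₁ * x ^ p + 2 ^ k₂ * (L : ℤ) ^ m₂ * y ^ p +
      2 ^ k₃ * (L : ℤ) ^ m₃ * z ^ p ≠ 0 := by
  obtain ⟨h1, h2, h3, h4⟩ := noForm_of_le_five hL
  exact coeff_of_noForm hSF h1 h2 noForm_one h3 noForm_two h4 hk hx hy hz

/-- **The equation `x ^ p + y ^ p = 2 ^ k L ^ m z ^ p`**, `L = 1, 3, 5` (Serre 1987, Ribet 1997):
no solution with `x y z ≠ 0` if `k` is not congruent to `1`, `2` or `3` modulo `p`. -/
theorem serre_equation (hp : 4 < p) (hpo : Odd p) (hSF : SerreFrey p) {L : ℕ}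
    (hL : L = 1 ∨ L = 3 ∨ L = 5) {k m : ℕ} (hk : k % p ≠ 1 ∧ k % p ≠ 2 ∧ k % p ≠ 3) {x y z : ℤ}
    (hx : x ≠ 0) (hy : y ≠ 0) (hz : z ≠ 0) : x ^ p + y ^ p ≠ 2 ^ k * (L : ℤ) ^ m * z ^ p := by
  obtain ⟨h1, h2, h3, h4⟩ := noForm_of_le_five hL
  exact main_of_noForm hp hpo hSF h1 h2 noForm_one h3 noForm_two h4 hk hx hy hz

/-- **The equation `x ^ p + y ^ p = 2 ^ k L ^ m z ^ p`**, `k ≡ 4` modulo `p`, `L = 1, 3, 5, 7, 13`. -/
theorem serre_equation_four (hp : 4 < p) (hSF : SerreFrey p) {L : ℕ}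
    (hL : L = 1 ∨ L = 3 ∨ L = 5 ∨ L = 7 ∨ L = 13) {k m : ℕ} (hk : k % p = 4) {x y z : ℤ}
    (hx : x ≠ 0) (hy : y ≠ 0) (hz : z ≠ 0) : x ^ p + y ^ p ≠ 2 ^ k * (L : ℤ) ^ m * z ^ p := by
  have key : (L = 1 ∨ L.Prime) ∧ L % 2 = 1 ∧ NoForm L := by
    rcases hL with rfl | rfl | rfl | rfl | rfl
    · exact ⟨Or.inl rfl, rfl, noForm_one⟩
    · exact ⟨Or.inr Nat.prime_three, rfl, noForm_three⟩
    · exact ⟨Or.inr Nat.prime_five, rfl, noForm_five⟩
    · exact ⟨Or.inr (by norm_num), rfl, noForm_seven⟩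
    · exact ⟨Or.inr (by norm_num), rfl, noForm_thirteen⟩
  exact main_of_noForm_four hp hSF key.1 key.2.1 noForm_one key.2.2 hk hx hy hz

/-- **The equation `x ^ p + y ^ p = L ^ m z ^ p`**, `L = 1, 3, 5` (Serre 1987). -/
theorem serre_equation_odd (hp : 4 < p) (hpo : Odd p) (hSF : SerreFrey p) {L : ℕ}
    (hL : L = 1 ∨ L = 3 ∨ L = 5) {m : ℕ} {x y z : ℤ}
    (hx : x ≠ 0) (hy : y ≠ 0) (hz : z ≠ 0) : x ^ p + y ^ p ≠ (L : ℤ) ^ m * z ^ p := by
  have h := serre_equation hp hpo hSF hL (k := 0) (m := m) (by simp) hx hy hz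
  rwa [pow_zero, one_mul] at h

/-- **The equation `x ^ p + 2 ^ k y ^ p + z ^ p = 0`** (Ribet 1997), `k` not congruent to `1`, `2`, `3`
modulo `p`. -/
theorem ribet_equation (hp : 4 < p) (hSF : SerreFrey p) {k : ℕ}
    (hk : k % p ≠ 1 ∧ k % p ≠ 2 ∧ k % p ≠ 3) {x y z : ℤ}
    (hx : x ≠ 0) (hy : y ≠ 0) (hz : z ≠ 0) : x ^ p + 2 ^ k * y ^ p + z ^ p ≠ 0 := by
  intro h
  refine three_terms (k₁ := 0) (k₂ := k) (k₃ := 0) (m₁ := 0) (m₂ := 0) (m₃ := 0) hSF (Or.inl rfl) ?_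
    hx hy hz (by rw [← h]; ring)
  intro r hr
  have hr' : r % p = r := Nat.mod_eq_of_lt (by omega)
  rw [add_zero, hr', Nat.zero_mod]
  refine ⟨fun h => ?_, fun h => ?_, fun h => ?_⟩
  · obtain ⟨h1, h2⟩ := h
    rw [Nat.add_mod, h2, hr', add_zero, hr'] at h1
    omega
  · obtain ⟨h1, -⟩ := h
    rcases hr with rfl | rfl | rfl
    exacts [hk.1 h1, hk.2.1 h1, hk.2.2 h1]
  · obtain ⟨h1, -⟩ := h
    omega

/-- Fermat's Last Theorem for the exponent `p`, as a special case. -/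
theorem fermat_of_serreFrey (hp : 4 < p) (hpo : Odd p) (hSF : SerreFrey p) {x y z : ℤ}
    (hx : x ≠ 0) (hy : y ≠ 0) (hz : z ≠ 0) : x ^ p + y ^ p ≠ z ^ p := by
  have h := serre_equation_odd hp hpo hSF (L := 1) (Or.inl rfl) (m := 0) hx hy hz
  rwa [pow_zero, one_mul] at h

/-- **The prime divisors of `A B C`.** If `A + B + C = 0` are non-zero and coprime and `16 ∣ A B C`, then for
`L = 1, 3, 5` there is a prime `q ≠ 2, L` with `p ∤ v_q(A B C)`. -/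
theorem exists_prime_not_dvd (hSF : SerreFrey p) {L : ℕ} (hL : L = 1 ∨ L = 3 ∨ L = 5)
    {A B C : ℤ} (hA : A ≠ 0) (hB : B ≠ 0) (hC : C ≠ 0) (hsum : A + B + C = 0)
    (hcop : IsCoprime A B) (h16 : (16 : ℤ) ∣ A * B * C) :
    ∃ q : ℕ, q.Prime ∧ q ≠ 2 ∧ q ≠ L ∧ ¬ p ∣ padicValInt q (A * B * C) := by
  by_contra hcon
  push Not at hcon
  obtain ⟨f, hf⟩ := hSF A B C hA hB hC hsum hcop h16
  obtain ⟨-, -, h3, h4⟩ := noForm_of_le_five hL
  have hlev : NoForm (freyLevel p (A * B * C)) := by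
    rw [freyLevel]
    rcases freyLevel_odd (p := p) (L := L) (n := A * B * C) hcon with h | h <;> rw [h] <;> split_ifs
    · rw [mul_one]; exact noForm_one
    · rw [one_mul]; exact noForm_two
    · rw [mul_one]; exact h3
    · exact h4
  exact hf (hlev f)

end Fermat.Agent.Cor
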