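import Fermat.Agent.Corollaries.K4.Main
import Fermat.Agent.Corollaries.K4.Equations
import Fermat.Agent.Corollaries.K4.Small.Main
import Fermat.Agent.Corollaries.K4.Small.FreyTwo
import Fermat.Agent.Corollaries.LevelLower

/-!
# Corollaries, K4 for every prime `p ≥ 5`

The Frey curve of a coprime triple has rational points of order two, so its mod `p` representation is irreducible for
every prime `p ≥ 5` (`Small.modRepIsIrreducible_of_two`). Hence `SerreFrey p` and the theorems of Serre and Ribet on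
`x ^ p + y ^ p = 2 ^ k L ^ m z ^ p` for every prime `p ≥ 5`.
-/

set_option autoImplicit false

open WeierstrassCurve CongruenceSubgroup

namespace Fermat.Agent.Cor

variable {p : ℕ}

/-- **Irreducibility of the Frey representations** for every coprime triple `A + B + C = 0`, `16 ∣ A B C`
(normalised), and every prime `p ≥ 5`. -/
theorem FreyTriple.irreducible (hp : p.Prime) (h5 : 5 ≤ p) {A B C : ℤ} (h : FreyTriple A B C) :
    (fA A B).ModRepIsIrreducible p :=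
  Small.modRepIsIrreducible_of_two hp h5 h.Δ_ne_zero h.isSemistableModel h.two_torsion_fixed

/-- **Serre 1987, with Wiles, Ribet and Mazur**: for every prime `p ≥ 5` and non-zero coprime `A + B + C = 0` with
`16 ∣ A B C` there is a non-zero cusp form of weight two and level `freyLevel p (A B C)`. -/
theorem serreFrey_all (hp : p.Prime) (h5 : 5 ≤ p) : SerreFrey p :=
  serreFrey_of_irreducible hp (by omega) (fun _ _ _ h => h.irreducible hp h5)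
    fun _ hΔ hW hirr => exists_form_serre hΔ hW hp (by omega) hirr

/-- **`x ^ p + y ^ p = 2 ^ k L ^ m z ^ p`**, `L = 1, 3, 5`, `k` not congruent to `1`, `2`, `3` modulo `p`, has no
solution with `x y z ≠ 0`, for every prime `p ≥ 5`. -/
theorem serre_equation_all (hp : p.Prime) (h5 : 5 ≤ p) {L : ℕ}
    (hL : L = 1 ∨ L = 3 ∨ L = 5) {k m : ℕ} (hk : k % p ≠ 1 ∧ k % p ≠ 2 ∧ k % p ≠ 3) {x y z : ℤ}
    (hx : x ≠ 0) (hy : y ≠ 0) (hz : z ≠ 0) : x ^ p + y ^ p ≠ 2 ^ k * (L : ℤ) ^ m * z ^ p :=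
  serre_equation (by omega) (hp.odd_of_ne_two (by omega)) (serreFrey_all hp h5) hL hk hx hy hz

/-- **`x ^ p + y ^ p = L ^ m z ^ p`**, `L = 1, 3, 5` (Serre 1987), has no solution with `x y z ≠ 0`, for every prime
`p ≥ 5`. -/
theorem serre_equation_odd_all (hp : p.Prime) (h5 : 5 ≤ p) {L : ℕ}
    (hL : L = 1 ∨ L = 3 ∨ L = 5) {m : ℕ} {x y z : ℤ} (hx : x ≠ 0) (hy : y ≠ 0) (hz : z ≠ 0) :
    x ^ p + y ^ p ≠ (L : ℤ) ^ m * z ^ p :=
  serre_equation_odd (by omega) (hp.odd_of_ne_two (by omega)) (serreFrey_all hp h5) hL hx hy hz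

/-- **`x ^ p + y ^ p = 2 ^ k L ^ m z ^ p`**, `k ≡ 4` modulo `p`, `L = 1, 3, 5, 7, 13`, for every prime `p ≥ 5`. -/
theorem serre_equation_four_all (hp : p.Prime) (h5 : 5 ≤ p) {L : ℕ}
    (hL : L = 1 ∨ L = 3 ∨ L = 5 ∨ L = 7 ∨ L = 13) {k m : ℕ} (hk : k % p = 4) {x y z : ℤ}
    (hx : x ≠ 0) (hy : y ≠ 0) (hz : z ≠ 0) : x ^ p + y ^ p ≠ 2 ^ k * (L : ℤ) ^ m * z ^ p :=
  serre_equation_four (by omega) (serreFrey_all hp h5) hL hk hx hy hz

/-- **`x ^ p + 2 ^ k y ^ p + z ^ p = 0`** (Ribet 1997), `k` not congruent to `1`, `2`, `3` modulo `p`, for every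
prime `p ≥ 5`. -/
theorem ribet_equation_all (hp : p.Prime) (h5 : 5 ≤ p) {k : ℕ}
    (hk : k % p ≠ 1 ∧ k % p ≠ 2 ∧ k % p ≠ 3) {x y z : ℤ} (hx : x ≠ 0) (hy : y ≠ 0) (hz : z ≠ 0) :
    x ^ p + 2 ^ k * y ^ p + z ^ p ≠ 0 :=
  ribet_equation (by omega) (serreFrey_all hp h5) hk hx hy hz

/-- **Three terms** for every prime `p ≥ 5`, `L = 1, 3, 5`. -/
theorem three_terms_all (hp : p.Prime) (h5 : 5 ≤ p) {L : ℕ}
    (hL : L = 1 ∨ L = 3 ∨ L = 5) {k₁ k₂ k₃ m₁ m₂ m₃ : ℕ}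
    (hk : ∀ r : ℕ, r = 1 ∨ r = 2 ∨ r = 3 →
      ¬ (k₁ % p = (r + k₂) % p ∧ k₂ % p = k₃ % p) ∧
      ¬ (k₂ % p = (r + k₁) % p ∧ k₁ % p = k₃ % p) ∧
      ¬ (k₃ % p = (r + k₁) % p ∧ k₁ % p = k₂ % p))
    {x y z : ℤ} (hx : x ≠ 0) (hy : y ≠ 0) (hz : z ≠ 0) :
    2 ^ k₁ * (L : ℤ) ^ m₁ * x ^ p + 2 ^ k₂ * (L : ℤ) ^ m₂ * y ^ p +
      2 ^ k₃ * (L : ℤ) ^ m₃ * z ^ p ≠ 0 :=
  three_terms (serreFrey_all hp h5) hL hk hx hy hz

/-- **The prime divisors of `A B C`**: `A + B + C = 0` non-zero, coprime, `16 ∣ A B C`: for every prime `p ≥ 5` and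
`L = 1, 3, 5` there is a prime `q ≠ 2, L` with `p ∤ v_q(A B C)`. -/
theorem exists_prime_not_dvd_all (hp : p.Prime) (h5 : 5 ≤ p) {L : ℕ}
    (hL : L = 1 ∨ L = 3 ∨ L = 5) {A B C : ℤ} (hA : A ≠ 0) (hB : B ≠ 0) (hC : C ≠ 0)
    (hsum : A + B + C = 0) (hcop : IsCoprime A B) (h16 : (16 : ℤ) ∣ A * B * C) :
    ∃ q : ℕ, q.Prime ∧ q ≠ 2 ∧ q ≠ L ∧ ¬ p ∣ padicValInt q (A * B * C) :=
  exists_prime_not_dvd (serreFrey_all hp h5) hL hA hB hC hsum hcop h16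

/-- **Composite exponents**: if `n` has a prime factor `p ≥ 5` and `L = 1, 3, 5`, then `x ^ n + y ^ n = L ^ m z ^ n`
has no solution with `x y z ≠ 0`. -/
theorem serre_equation_exponent {n : ℕ} (hp : p.Prime) (h5 : 5 ≤ p) (hpn : p ∣ n) {L : ℕ}
    (hL : L = 1 ∨ L = 3 ∨ L = 5) {m : ℕ} {x y z : ℤ} (hx : x ≠ 0) (hy : y ≠ 0) (hz : z ≠ 0) :
    x ^ n + y ^ n ≠ (L : ℤ) ^ m * z ^ n := by
  obtain ⟨t, rfl⟩ := hpn
  rw [mul_comm p t, pow_mul, pow_mul, pow_mul]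
  exact serre_equation_odd_all hp h5 hL (pow_ne_zero _ hx) (pow_ne_zero _ hy) (pow_ne_zero _ hz)

/-- **Fermat's Last Theorem for every prime exponent `p ≥ 5`**, uniformly by the Frey curve (no case is treated by
Kummer's method). -/
theorem fermat_prime_all (hp : p.Prime) (h5 : 5 ≤ p) {x y z : ℤ} (hx : x ≠ 0) (hy : y ≠ 0)
    (hz : z ≠ 0) : x ^ p + y ^ p ≠ z ^ p :=
  fermat_of_serreFrey (by omega) (hp.odd_of_ne_two (by omega)) (serreFrey_all hp h5) hx hy hz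

end Fermat.Agent.Cor
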