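import Mathlib.NumberTheory.ModularForms.Basic
import Mathlib.NumberTheory.ModularForms.CongruenceSubgroups
import Mathlib.NumberTheory.Padics.PadicVal.Basic

/-!
# Corollaries, K4: the level attached to `A + B + C = 0`

For non-zero coprime integers `A + B + C = 0` with `16 ∣ A B C`, the Frey curve of `(A, B, C)` is
semistable, with discriminant `(A B C / 16) ^ 2`.  For a prime `p` the level `freyLevel p (A B C)` is the
product of the primes at which the representation on the points of order `p` is not finite.
-/

set_option autoImplicit false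

open CongruenceSubgroup

namespace Fermat.Agent.Cor

/-- The product of the odd primes `q` with `p ∤ v_q(n)`, times `2` if `p ∤ v_2(n) - 4`. -/
noncomputable def freyLevel (p : ℕ) (n : ℤ) : ℕ :=
  (∏ q ∈ n.natAbs.primeFactors.erase 2 with ¬ p ∣ padicValInt q n, q) *
    (if p ∣ padicValInt 2 n - 4 then 1 else 2)

/-- The theorem of Serre, Wiles and Ribet for the exponent `p`: the existence of a form of weight two and of
level `freyLevel p (A B C)`. -/
def SerreFrey (p : ℕ) : Prop :=
  ∀ A B C : ℤ, A ≠ 0 → B ≠ 0 → C ≠ 0 → A + B + C = 0 → IsCoprime A B → (16 : ℤ) ∣ A * B * C →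
    ∃ f : CuspForm (Gamma0 (freyLevel p (A * B * C))) 2, f ≠ 0

/-- There is no form of weight two and level `N`. -/
def NoForm (N : ℕ) : Prop := ∀ f : CuspForm (Gamma0 N) 2, f = 0

end Fermat.Agent.Cor
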