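import Mathlib
import Fermat.Agent.Corollaries.K4.Defs

/-!
# Corollaries, K4: equations

From `SerreFrey p` and the absence of forms of weight two and small level: if `A + B + C = 0` is a non-trivial
solution whose valuations at the primes other than `2` and `L` are divisible by `p`, then there is a
congruence between the `2`-adic valuations of `A`, `B`, `C`.
-/

set_option autoImplicit false

open CongruenceSubgroup

namespace Fermat.Agent.Cor

/-! ### Valuations -/

theorem padicValInt_pow' {q : ℕ} (hq : q.Prime) {x : ℤ} (_hx : x ≠ 0) (n : ℕ) :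
    padicValInt q (x ^ n) = n * padicValInt q x := by
  have : Fact q.Prime := ⟨hq⟩
  rw [padicValInt, padicValInt, Int.natAbs_pow, padicValNat.pow]

theorem padicValInt_mul' {q : ℕ} (hq : q.Prime) {x y : ℤ} (hx : x ≠ 0) (hy : y ≠ 0) :
    padicValInt q (x * y) = padicValInt q x + padicValInt q y := by
  have : Fact q.Prime := ⟨hq⟩
  exact padicValInt.mul hx hy

theorem padicValInt_eq_zero' {q : ℕ} {x : ℤ} (h : ¬ (q : ℤ) ∣ x) : padicValInt q x = 0 := by
  rw [padicValInt]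
  exact padicValNat.eq_zero_of_not_dvd (fun h' => h (Int.natCast_dvd.mpr h'))

theorem padicValInt_neg' (q : ℕ) (x : ℤ) : padicValInt q (-x) = padicValInt q x := by
  rw [padicValInt, padicValInt, Int.natAbs_neg]

/-- The primitive solution attached to a solution. -/
structure Prim (A B C A' B' C' g : ℤ) : Prop where
  g0 : g ≠ 0
  a : A = g * A'
  b : B = g * B'
  c : C = g * C'
  a0 : A' ≠ 0
  b0 : B' ≠ 0
  c0 : C' ≠ 0
  sum : A' + B' + C' = 0
  cop : IsCoprime A' B'

theorem exists_prim {A B C : ℤ} (hA : A ≠ 0) (hB : B ≠ 0) (hC : C ≠ 0) (h : A + B + C = 0) :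
    ∃ A' B' C' g : ℤ, Prim A B C A' B' C' g := by
  have hg : ((Int.gcd A B : ℕ) : ℤ) ≠ 0 := by
    rw [Nat.cast_ne_zero, Ne, Int.gcd_eq_zero_iff]
    exact fun h => hA h.1
  obtain ⟨a, ha⟩ := Int.gcd_dvd_left (a := A) (b := B)
  obtain ⟨b, hb⟩ := Int.gcd_dvd_right (a := A) (b := B)
  refine ⟨a, b, -(a + b), (Int.gcd A B : ℕ), hg, ha, hb, ?_, ?_, ?_, ?_, by ring, ?_⟩
  · linear_combination h - ha - hb
  · rintro rfl
    exact hA (by rw [ha, mul_zero])
  · rintro rfl
    exact hB (by rw [hb, mul_zero])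
  · intro h0
    apply hC
    linear_combination h - ha - hb + (Int.gcd A B : ℤ) * h0
  · rw [Int.isCoprime_iff_gcd_eq_one]
    have key : ∀ G : ℕ, A = (G : ℤ) * a → B = (G : ℤ) * b → Int.gcd A B = G * Int.gcd a b := by
      intro G h1 h2
      rw [h1, h2, Int.gcd_mul_left, Int.natAbs_natCast]
    have h1 := key _ ha hb
    exact Nat.eq_of_mul_eq_mul_left (Nat.pos_of_ne_zero (by exact_mod_cast hg))
      (by rw [mul_one]; exact h1.symm)

namespace Prim

variable {A B C A' B' C' g : ℤ} (P : Prim A B C A' B' C' g)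

include P

theorem n0 : A' * B' * C' ≠ 0 := mul_ne_zero (mul_ne_zero P.a0 P.b0) P.c0

theorem cop_ac : IsCoprime A' C' := by
  obtain ⟨u, v, h⟩ := P.cop
  exact ⟨u - v, -v, by linear_combination h - v * P.sum⟩

theorem cop_bc : IsCoprime B' C' := by
  obtain ⟨u, v, h⟩ := P.cop
  exact ⟨v - u, -u, by linear_combination h - u * P.sum⟩

/-- **The valuations of a primitive solution.** -/
theorem val {q : ℕ} (hq : q.Prime) :
    padicValInt q (A' * B' * C') = 0 ∨
    (padicValInt q A = padicValInt q (A' * B' * C') + padicValInt q B ∧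
      padicValInt q B = padicValInt q C) ∨
    (padicValInt q B = padicValInt q (A' * B' * C') + padicValInt q A ∧
      padicValInt q A = padicValInt q C) ∨
    (padicValInt q C = padicValInt q (A' * B' * C') + padicValInt q A ∧
      padicValInt q A = padicValInt q B) := by
  have hZ : Prime (q : ℤ) := Nat.prime_iff_prime_int.mp hq
  have key : ∀ {x y : ℤ}, IsCoprime x y → (q : ℤ) ∣ x → ¬ (q : ℤ) ∣ y := by
    intro x y hxy h1 h2
    exact hZ.not_isUnit (hxy.isUnit_of_dvd' h1 h2)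
  rw [P.a, P.b, P.c, padicValInt_mul' hq P.g0 P.a0, padicValInt_mul' hq P.g0 P.b0,
    padicValInt_mul' hq P.g0 P.c0, padicValInt_mul' hq (mul_ne_zero P.a0 P.b0) P.c0,
    padicValInt_mul' hq P.a0 P.b0]
  by_cases h1 : (q : ℤ) ∣ A'
  · have h2 := padicValInt_eq_zero' (key P.cop h1)
    have h3 := padicValInt_eq_zero' (key P.cop_ac h1)
    right; left
    omega
  · have h1' := padicValInt_eq_zero' h1
    by_cases h2 : (q : ℤ) ∣ B'
    · have h3 := padicValInt_eq_zero' (key P.cop_bc h2)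
      right; right; left
      omega
    · have h2' := padicValInt_eq_zero' h2
      by_cases h3 : (q : ℤ) ∣ C'
      · right; right; right
        omega
      · have h3' := padicValInt_eq_zero' h3
        left
        omega

omit P in
/-- Sixteen. -/
theorem sixteen_dvd (h : 4 ≤ padicValInt 2 (A' * B' * C')) : (16 : ℤ) ∣ A' * B' * C' := by
  have h1 : (2 : ℕ) ^ 4 ∣ (A' * B' * C').natAbs :=
    (pow_dvd_pow 2 h).trans (pow_padicValNat_dvd)
  have h2 := Int.natCast_dvd.mpr h1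
  norm_num at h2
  exact h2

/-- A primitive solution is even. -/
theorem val_two_pos : 0 < padicValInt 2 (A' * B' * C') := by
  have h2 : (2 : ℤ) ∣ A' * B' * C' := by
    have hs := P.sum
    rcases Int.even_or_odd A' with h | h
    · exact (h.two_dvd.mul_right _).mul_right _
    · rcases Int.even_or_odd B' with h' | h'
      · exact (h'.two_dvd.mul_left _).mul_right _
      · have h3 : Even C' := by
          have : C' = -(A' + B') := by linear_combination hs
          rw [this]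
          exact (h.add_odd h').neg
        exact h3.two_dvd.mul_left _
  have : Fact (Nat.Prime 2) := ⟨Nat.prime_two⟩
  rw [padicValInt]
  exact one_le_padicValNat_of_dvd (Int.natAbs_ne_zero.mpr P.n0) (by
    have := Int.natAbs_dvd_natAbs.mpr h2
    simpa using this)

end Prim

/-! ### The level -/

theorem freyLevel_odd {p L : ℕ} {n : ℤ} (h : ∀ q : ℕ, q.Prime → q ≠ 2 → q ≠ L → p ∣ padicValInt q n) :
    (∏ q ∈ n.natAbs.primeFactors.erase 2 with ¬ p ∣ padicValInt q n, q) = 1 ∨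
      (∏ q ∈ n.natAbs.primeFactors.erase 2 with ¬ p ∣ padicValInt q n, q) = L := by
  have hsub : (n.natAbs.primeFactors.erase 2).filter (fun q => ¬ p ∣ padicValInt q n) ⊆ {L} := by
    intro q hq
    rw [Finset.mem_filter, Finset.mem_erase] at hq
    rw [Finset.mem_singleton]
    by_contra hne
    exact hq.2 (h q (Nat.prime_of_mem_primeFactors hq.1.2) hq.1.1 hne)
  rcases Finset.subset_singleton_iff.mp hsub with h1 | h1
  · left
    rw [h1, Finset.prod_empty]
  · right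
    rw [h1, Finset.prod_singleton]

/-- **The general statement.** -/
theorem contradiction_of_level {p : ℕ} (hSF : SerreFrey p) {L : ℕ} {A B C A' B' C' g : ℤ}
    (P : Prim A B C A' B' C' g)
    (hq : ∀ q : ℕ, q.Prime → q ≠ 2 → q ≠ L →
      p ∣ padicValInt q A ∧ p ∣ padicValInt q B ∧ p ∣ padicValInt q C)
    (h4 : 4 ≤ padicValInt 2 (A' * B' * C'))
    (hL : (p ∣ padicValInt 2 (A' * B' * C') - 4 ∧ NoForm 1 ∧ NoForm L) ∨
      (NoForm 1 ∧ NoForm L ∧ NoForm 2 ∧ NoForm (L * 2))) : False := by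
  obtain ⟨f, hf⟩ := hSF A' B' C' P.a0 P.b0 P.c0 P.sum P.cop (Prim.sixteen_dvd h4)
  apply hf
  have hodd := freyLevel_odd (p := p) (L := L) (n := A' * B' * C') (by
    intro q hqp h2 hL'
    obtain ⟨a, b, c⟩ := hq q hqp h2 hL'
    rcases P.val hqp with h | ⟨h, -⟩ | ⟨h, -⟩ | ⟨h, -⟩
    · rw [h]; exact dvd_zero p
    · exact (Nat.dvd_add_left b).mp (h ▸ a)
    · exact (Nat.dvd_add_left a).mp (h ▸ b)
    · exact (Nat.dvd_add_left a).mp (h ▸ c))
  have hlev : NoForm (freyLevel p (A' * B' * C')) := by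
    rw [freyLevel]
    rcases hL with ⟨h1, n1, nL⟩ | ⟨n1, nL, n2, nL2⟩
    · rw [if_pos h1, mul_one]
      rcases hodd with h | h <;> rw [h] <;> assumption
    · split_ifs
      · rw [mul_one]
        rcases hodd with h | h <;> rw [h] <;> assumption
      · rcases hodd with h | h <;> rw [h]
        · rw [one_mul]; exact n2
        · exact nL2
  exact hlev f

/-- **Equations with two-adic condition.** If the valuations of `A`, `B`, `C` at the primes other than `2` and `L`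
are divisible by `p`, and no difference of the valuations at `2` is congruent to `1`, `2` or `3` modulo `p`, then
`A + B + C ≠ 0`. -/
theorem no_solution {p : ℕ} (hSF : SerreFrey p) {L : ℕ} (n1 : NoForm 1) (nL : NoForm L)
    (n2 : NoForm 2) (nL2 : NoForm (L * 2)) {A B C : ℤ} (hA : A ≠ 0) (hB : B ≠ 0) (hC : C ≠ 0)
    (hq : ∀ q : ℕ, q.Prime → q ≠ 2 → q ≠ L →
      p ∣ padicValInt q A ∧ p ∣ padicValInt q B ∧ p ∣ padicValInt q C)
    (h2 : ∀ r : ℕ, r = 1 ∨ r = 2 ∨ r = 3 →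
      ¬ (padicValInt 2 A = r + padicValInt 2 B ∧ padicValInt 2 B = padicValInt 2 C) ∧
      ¬ (padicValInt 2 B = r + padicValInt 2 A ∧ padicValInt 2 A = padicValInt 2 C) ∧
      ¬ (padicValInt 2 C = r + padicValInt 2 A ∧ padicValInt 2 A = padicValInt 2 B)) :
    A + B + C ≠ 0 := by
  intro hsum
  obtain ⟨A', B', C', g, P⟩ := exists_prim hA hB hC hsum
  refine contradiction_of_level hSF P hq ?_ (Or.inr ⟨n1, nL, n2, nL2⟩)
  have hpos := P.val_two_pos
  by_contra hlt
  have hr : padicValInt 2 (A' * B' * C') = 1 ∨ padicValInt 2 (A' * B' * C') = 2 ∨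
      padicValInt 2 (A' * B' * C') = 3 := by omega
  obtain ⟨c1, c2, c3⟩ := h2 _ hr
  rcases P.val Nat.prime_two with h | h | h | h
  · omega
  · exact c1 h
  · exact c2 h
  · exact c3 h

/-! ### Equations `x ^ p + y ^ p = 2 ^ k L ^ m z ^ p` -/

/-- The valuation of the right side. -/
theorem val_rhs {q p k m L : ℕ} (hq : q.Prime) (hL : L ≠ 0) {z : ℤ} (hz : z ≠ 0) :
    padicValInt q (2 ^ k * (L : ℤ) ^ m * z ^ p) =
      k * padicValInt q 2 + m * padicValInt q L + p * padicValInt q z := by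
  have hL' : (L : ℤ) ≠ 0 := by exact_mod_cast hL
  rw [padicValInt_mul' hq (mul_ne_zero (pow_ne_zero _ two_ne_zero) (pow_ne_zero _ hL'))
    (pow_ne_zero _ hz), padicValInt_mul' hq (pow_ne_zero _ two_ne_zero) (pow_ne_zero _ hL'),
    padicValInt_pow' hq two_ne_zero, padicValInt_pow' hq hL', padicValInt_pow' hq hz]

theorem val_other {q L : ℕ} (hq : q.Prime) (hL : L = 1 ∨ L.Prime) (h2 : q ≠ 2) (h : q ≠ L) :
    padicValInt q 2 = 0 ∧ padicValInt q L = 0 := by
  constructor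
  · refine padicValInt_eq_zero' fun h' => h2 ?_
    exact (Nat.prime_dvd_prime_iff_eq hq Nat.prime_two).mp (by exact_mod_cast h')
  · refine padicValInt_eq_zero' fun h' => ?_
    have h1 : q ∣ L := by exact_mod_cast h'
    rcases hL with rfl | hL
    · exact hq.one_lt.ne' (Nat.dvd_one.mp h1)
    · exact h ((Nat.prime_dvd_prime_iff_eq hq hL).mp h1)

theorem padicValInt_two_two : padicValInt 2 2 = 1 := by
  have : Fact (Nat.Prime 2) := ⟨Nat.prime_two⟩
  have h := padicValInt.self (p := 2) (by norm_num)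
  exact_mod_cast h

theorem padicValInt_two_odd {L : ℕ} (hL : L % 2 = 1) : padicValInt 2 (L : ℤ) = 0 :=
  padicValInt_eq_zero' fun h => by
    have h1 : 2 ∣ L := by exact_mod_cast h
    omega

theorem mod_of_eq {p a b x y : ℕ} (h : a + p * x = b + p * y) : a % p = b % p := by
  have h1 : (a + p * x) % p = (b + p * y) % p := by rw [h]
  rwa [Nat.add_mul_mod_self_left, Nat.add_mul_mod_self_left] at h1

/-- **Equations with three coefficients** `± 2 ^ k L ^ m`. -/
theorem coeff_of_noForm {p : ℕ} (hSF : SerreFrey p) {L : ℕ} (hL : L = 1 ∨ L.Prime)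
    (hL2 : L % 2 = 1) (n1 : NoForm 1) (nL : NoForm L) (n2 : NoForm 2) (nL2 : NoForm (L * 2))
    {k₁ k₂ k₃ m₁ m₂ m₃ : ℕ}
    (hk : ∀ r : ℕ, r = 1 ∨ r = 2 ∨ r = 3 →
      ¬ (k₁ % p = (r + k₂) % p ∧ k₂ % p = k₃ % p) ∧
      ¬ (k₂ % p = (r + k₁) % p ∧ k₁ % p = k₃ % p) ∧
      ¬ (k₃ % p = (r + k₁) % p ∧ k₁ % p = k₂ % p))
    {x y z : ℤ} (hx : x ≠ 0) (hy : y ≠ 0) (hz : z ≠ 0) :
    2 ^ k₁ * (L : ℤ) ^ m₁ * x ^ p + 2 ^ k₂ * (L : ℤ) ^ m₂ * y ^ p +
      2 ^ k₃ * (L : ℤ) ^ m₃ * z ^ p ≠ 0 := by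
  have hL0 : L ≠ 0 := by omega
  have hL' : (L : ℤ) ≠ 0 := by exact_mod_cast hL0
  have h0 : ∀ {k m : ℕ} {z : ℤ}, z ≠ 0 → (2 : ℤ) ^ k * (L : ℤ) ^ m * z ^ p ≠ 0 := fun hz =>
    mul_ne_zero (mul_ne_zero (pow_ne_zero _ two_ne_zero) (pow_ne_zero _ hL')) (pow_ne_zero _ hz)
  refine no_solution hSF n1 nL n2 nL2 (h0 hx) (h0 hy) (h0 hz) ?_ ?_
  · intro q hq h2 hqL
    obtain ⟨e1, e2⟩ := val_other hq hL h2 hqL
    rw [val_rhs hq hL0 hx, val_rhs hq hL0 hy, val_rhs hq hL0 hz, e1, e2]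
    simp
  · intro r hr
    obtain ⟨c1, c2, c3⟩ := hk r hr
    rw [val_rhs Nat.prime_two hL0 hx, val_rhs Nat.prime_two hL0 hy, val_rhs Nat.prime_two hL0 hz,
      padicValInt_two_two, padicValInt_two_odd hL2]
    simp only [mul_one, mul_zero, add_zero, ← add_assoc]
    exact ⟨fun h => c1 ⟨mod_of_eq h.1, mod_of_eq h.2⟩, fun h => c2 ⟨mod_of_eq h.1, mod_of_eq h.2⟩,
      fun h => c3 ⟨mod_of_eq h.1, mod_of_eq h.2⟩⟩

/-- **The equation `x ^ p + y ^ p = 2 ^ k L ^ m z ^ p`** (Serre, Ribet), `k mod p ∉ {1, 2, 3}`. -/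
theorem main_of_noForm {p : ℕ} (hp : 4 < p) (hpo : Odd p) (hSF : SerreFrey p) {L : ℕ}
    (hL : L = 1 ∨ L.Prime) (hL2 : L % 2 = 1) (n1 : NoForm 1) (nL : NoForm L) (n2 : NoForm 2)
    (nL2 : NoForm (L * 2)) {k m : ℕ} (hk : k % p ≠ 1 ∧ k % p ≠ 2 ∧ k % p ≠ 3) {x y z : ℤ}
    (hx : x ≠ 0) (hy : y ≠ 0) (hz : z ≠ 0) : x ^ p + y ^ p ≠ 2 ^ k * (L : ℤ) ^ m * z ^ p := by
  intro heq
  refine coeff_of_noForm (k₁ := 0) (k₂ := 0) (k₃ := k) (m₁ := 0) (m₂ := 0) (m₃ := m) hSF hL hL2 n1 nL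
    n2 nL2 ?_ hx hy (neg_ne_zero.mpr hz) ?_
  · intro r hr
    have hr' : r % p = r := Nat.mod_eq_of_lt (by omega)
    rw [add_zero, hr', Nat.zero_mod]
    refine ⟨fun h => ?_, fun h => ?_, fun h => ?_⟩ <;> omega
  · rw [hpo.neg_pow]
    linear_combination heq

/-- **The equation `x ^ p + y ^ p = 2 ^ k L ^ m z ^ p`**, `k ≡ 4` modulo `p`: only the level `L` is needed. -/
theorem main_of_noForm_four {p : ℕ} (hp : 4 < p) (hSF : SerreFrey p) {L : ℕ} (hL : L = 1 ∨ L.Prime)
    (hL2 : L % 2 = 1) (n1 : NoForm 1) (nL : NoForm L)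
    {k m : ℕ} (hk : k % p = 4) {x y z : ℤ} (hx : x ≠ 0) (hy : y ≠ 0)
    (hz : z ≠ 0) : x ^ p + y ^ p ≠ 2 ^ k * (L : ℤ) ^ m * z ^ p := by
  intro heq
  have hL0 : L ≠ 0 := by omega
  have hL' : (L : ℤ) ≠ 0 := by exact_mod_cast hL0
  have h0 : (2 : ℤ) ^ k * (L : ℤ) ^ m * z ^ p ≠ 0 :=
    mul_ne_zero (mul_ne_zero (pow_ne_zero _ two_ne_zero) (pow_ne_zero _ hL')) (pow_ne_zero _ hz)
  obtain ⟨A', B', C', g, P⟩ := exists_prim (pow_ne_zero p hx) (pow_ne_zero p hy)
    (neg_ne_zero.mpr h0) (by linear_combination heq)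
  have key : ∃ a b : ℕ, padicValInt 2 (A' * B' * C') + p * a = 4 + p * b := by
    have h := P.val Nat.prime_two
    rw [padicValInt_pow' Nat.prime_two hx, padicValInt_pow' Nat.prime_two hy, padicValInt_neg',
      val_rhs Nat.prime_two hL0 hz, padicValInt_two_two, padicValInt_two_odd hL2, mul_one, mul_zero,
      add_zero] at h
    have hk' := Nat.div_add_mod k p
    rw [hk] at hk'
    have hno : ∀ a b : ℕ, p * a ≠ k + p * b := by
      intro a b h
      have h1 : (p * a) % p = (k + p * b) % p := by rw [h]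
      rw [Nat.mul_mod_right, Nat.add_mul_mod_self_left] at h1
      omega
    rcases h with h | ⟨-, h⟩ | ⟨-, h⟩ | ⟨h, -⟩
    · have := P.val_two_pos
      omega
    · exact absurd h (hno _ _)
    · exact absurd h (hno _ _)
    · refine ⟨padicValInt 2 x, k / p + padicValInt 2 z, ?_⟩
      rw [← h, ← hk', mul_add]
      have h3 : (p * (k / p) + 4) / p = k / p := by rw [hk']
      rw [h3]
      ring
  obtain ⟨a, b, hab⟩ := key
  have hpos := P.val_two_pos
  have h5 : padicValInt 2 (A' * B' * C') % p = 4 := by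
    have h1 : (padicValInt 2 (A' * B' * C') + p * a) % p = (4 + p * b) % p := by rw [hab]
    rw [Nat.add_mul_mod_self_left, Nat.add_mul_mod_self_left, Nat.mod_eq_of_lt (by omega : 4 < p)] at h1
    exact h1
  have h6 : 4 ≤ padicValInt 2 (A' * B' * C') := by
    have := Nat.mod_le (padicValInt 2 (A' * B' * C')) p
    omega
  have h7 : p ∣ padicValInt 2 (A' * B' * C') - 4 := by
    refine ⟨padicValInt 2 (A' * B' * C') / p, ?_⟩
    have := Nat.div_add_mod (padicValInt 2 (A' * B' * C')) p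
    omega
  refine contradiction_of_level hSF P ?_ h6 (Or.inl ⟨h7, n1, nL⟩)
  intro q hq h2 hqL
  obtain ⟨e1, e2⟩ := val_other hq hL h2 hqL
  rw [padicValInt_pow' hq hx, padicValInt_pow' hq hy, padicValInt_neg', val_rhs hq hL0 hz, e1, e2]
  exact ⟨dvd_mul_right _ _, dvd_mul_right _ _, by simp⟩

end Fermat.Agent.Cor
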