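import Fermat.Agent.Corollaries.K4.Main
import Fermat.Agent.Corollaries.K4.Equations
import Fermat.Agent.Corollaries.LevelLower
import Fermat.Agent.Corollaries.Mazur.Main

/-!
# Corollaries, K4: the theorems of Serre and Ribet on `x ^ p + y ^ p = 2 ^ k L ^ m z ^ p`

For `p = 11` and the primes `p ≥ 17`, from Mazur's theorem (K1, K2), the modularity of semistable curves and
Ribet's theorem (K3).
-/

set_option autoImplicit false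

open WeierstrassCurve CongruenceSubgroup

namespace Fermat.Agent.Cor

variable {p : ℕ}

/-- **Serre 1987, with Wiles and Ribet**: for non-zero coprime `A + B + C = 0` with `16 ∣ A B C` there is a
non-zero cusp form of weight two and level `freyLevel p (A B C)`, the product of the odd primes `q` with
`p ∤ v_q(A B C)`, times `2` if `p ∤ v_2(A B C) - 4`. -/
theorem serreFrey (hp : p.Prime) (h : p = 11 ∨ 17 ≤ p) : SerreFrey p :=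
  serreFrey_of_irreducible hp (by omega)
    (fun _ _ _ hF => modRepIsIrreducible hp h hF.Δ_ne_zero hF.isSemistableModel)
    fun _ hΔ hW hirr => exists_form_serre hΔ hW hp (by omega) hirr

theorem odd_of_big (hp : p.Prime) (h : p = 11 ∨ 17 ≤ p) : Odd p :=
  hp.odd_of_ne_two (by omega)

/-- **`x ^ p + y ^ p = 2 ^ k L ^ m z ^ p`**, `L = 1, 3, 5` and `k` not congruent to `1`, `2`, `3` modulo `p`, has no
solution with `x y z ≠ 0`, for `p = 11` and `p ≥ 17`. -/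
theorem serre_equation_big (hp : p.Prime) (h : p = 11 ∨ 17 ≤ p) {L : ℕ}
    (hL : L = 1 ∨ L = 3 ∨ L = 5) {k m : ℕ} (hk : k % p ≠ 1 ∧ k % p ≠ 2 ∧ k % p ≠ 3) {x y z : ℤ}
    (hx : x ≠ 0) (hy : y ≠ 0) (hz : z ≠ 0) : x ^ p + y ^ p ≠ 2 ^ k * (L : ℤ) ^ m * z ^ p :=
  serre_equation (by omega) (odd_of_big hp h) (serreFrey hp h) hL hk hx hy hz

/-- **`x ^ p + y ^ p = L ^ m z ^ p`**, `L = 1, 3, 5` (Serre 1987), for `p = 11` and `p ≥ 17`. -/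
theorem serre_equation_odd_big (hp : p.Prime) (h : p = 11 ∨ 17 ≤ p) {L : ℕ}
    (hL : L = 1 ∨ L = 3 ∨ L = 5) {m : ℕ} {x y z : ℤ} (hx : x ≠ 0) (hy : y ≠ 0) (hz : z ≠ 0) :
    x ^ p + y ^ p ≠ (L : ℤ) ^ m * z ^ p :=
  serre_equation_odd (by omega) (odd_of_big hp h) (serreFrey hp h) hL hx hy hz

/-- **`x ^ p + y ^ p = 2 ^ k L ^ m z ^ p`**, `k ≡ 4` modulo `p`, `L = 1, 3, 5, 7, 13`. -/
theorem serre_equation_four_big (hp : p.Prime) (h : p = 11 ∨ 17 ≤ p) {L : ℕ}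
    (hL : L = 1 ∨ L = 3 ∨ L = 5 ∨ L = 7 ∨ L = 13) {k m : ℕ} (hk : k % p = 4) {x y z : ℤ}
    (hx : x ≠ 0) (hy : y ≠ 0) (hz : z ≠ 0) : x ^ p + y ^ p ≠ 2 ^ k * (L : ℤ) ^ m * z ^ p :=
  serre_equation_four (by omega) (serreFrey hp h) hL hk hx hy hz

/-- **`x ^ p + 2 ^ k y ^ p + z ^ p = 0`** (Ribet 1997), `k` not congruent to `1`, `2`, `3` modulo `p`. -/
theorem ribet_equation_big (hp : p.Prime) (h : p = 11 ∨ 17 ≤ p) {k : ℕ}
    (hk : k % p ≠ 1 ∧ k % p ≠ 2 ∧ k % p ≠ 3) {x y z : ℤ} (hx : x ≠ 0) (hy : y ≠ 0) (hz : z ≠ 0) :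
    x ^ p + 2 ^ k * y ^ p + z ^ p ≠ 0 :=
  ribet_equation (by omega) (serreFrey hp h) hk hx hy hz

/-- **Three terms**: `± 2 ^ k₁ L ^ m₁ x ^ p ± 2 ^ k₂ L ^ m₂ y ^ p ± 2 ^ k₃ L ^ m₃ z ^ p ≠ 0` (the signs are in `x`,
`y`, `z`), `L = 1, 3, 5`, unless two of the `k_i` are equal modulo `p` and the third exceeds them by `1`, `2`, `3`. -/
theorem three_terms_big (hp : p.Prime) (h : p = 11 ∨ 17 ≤ p) {L : ℕ}
    (hL : L = 1 ∨ L = 3 ∨ L = 5) {k₁ k₂ k₃ m₁ m₂ m₃ : ℕ}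
    (hk : ∀ r : ℕ, r = 1 ∨ r = 2 ∨ r = 3 →
      ¬ (k₁ % p = (r + k₂) % p ∧ k₂ % p = k₃ % p) ∧
      ¬ (k₂ % p = (r + k₁) % p ∧ k₁ % p = k₃ % p) ∧
      ¬ (k₃ % p = (r + k₁) % p ∧ k₁ % p = k₂ % p))
    {x y z : ℤ} (hx : x ≠ 0) (hy : y ≠ 0) (hz : z ≠ 0) :
    2 ^ k₁ * (L : ℤ) ^ m₁ * x ^ p + 2 ^ k₂ * (L : ℤ) ^ m₂ * y ^ p +
      2 ^ k₃ * (L : ℤ) ^ m₃ * z ^ p ≠ 0 :=
  three_terms (serreFrey hp h) hL hk hx hy hz

/-- **The prime divisors of `A B C`**: `A + B + C = 0` non-zero, coprime, `16 ∣ A B C`: for `L = 1, 3, 5` there is a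
prime `q ≠ 2, L` with `p ∤ v_q(A B C)`. -/
theorem exists_prime_not_dvd_big (hp : p.Prime) (h : p = 11 ∨ 17 ≤ p) {L : ℕ}
    (hL : L = 1 ∨ L = 3 ∨ L = 5) {A B C : ℤ} (hA : A ≠ 0) (hB : B ≠ 0) (hC : C ≠ 0)
    (hsum : A + B + C = 0) (hcop : IsCoprime A B) (h16 : (16 : ℤ) ∣ A * B * C) :
    ∃ q : ℕ, q.Prime ∧ q ≠ 2 ∧ q ≠ L ∧ ¬ p ∣ padicValInt q (A * B * C) :=
  exists_prime_not_dvd (serreFrey hp h) hL hA hB hC hsum hcop h16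

end Fermat.Agent.Cor
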