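import Mathlib
import Fermat.Prelude.Def_FLTPrelim_Modularity

/-!
# Frey curves of general triples

For coprime non-zero integers `A + B + C = 0` with `A ≡ -1 mod 4`, `B ≡ 0 mod 16` the curve
`y² + xy = x³ + (B - A - 1)/4 x² - AB/16 x` is an integral model of `y² = x (x - A) (x + B)`;
`c₄ = A² + AB + B²`, `2⁸ Δ = (ABC)²`, and it is semistable.
-/

set_option autoImplicit false

namespace Fermat.Agent.Cor

open WeierstrassCurve

/-- The Frey curve of `(A, B, -(A + B))`. -/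
def fA (A B : ℤ) : WeierstrassCurve ℤ where
  a₁ := 1
  a₂ := (B - A - 1) / 4
  a₃ := 0
  a₄ := -(A * B) / 16
  a₆ := 0

/-- The normalised triples: `A + B + C = 0`, non-zero, coprime, `A ≡ -1 mod 4`, `16 ∣ B`. -/
structure FreyTriple (A B C : ℤ) : Prop where
  sum : A + B + C = 0
  cop : IsCoprime A B
  ne_A : A ≠ 0
  ne_B : B ≠ 0
  ne_C : C ≠ 0
  four : (4 : ℤ) ∣ A + 1
  sixteen : (16 : ℤ) ∣ B

variable {A B C : ℤ}

theorem fA_a₂ (h4 : (4 : ℤ) ∣ A + 1) (h16 : (16 : ℤ) ∣ B) :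
    4 * (fA A B).a₂ = B - A - 1 := by
  have h : (4 : ℤ) ∣ B - A - 1 := by omega
  simp only [fA]
  exact Int.mul_ediv_cancel' h

theorem fA_a₄ (h16 : (16 : ℤ) ∣ B) : 16 * (fA A B).a₄ = -(A * B) := by
  have h : (16 : ℤ) ∣ -(A * B) := (h16.mul_left A).neg_right
  simp only [fA]
  exact Int.mul_ediv_cancel' h

theorem fA_b₂ (h4 : (4 : ℤ) ∣ A + 1) (h16 : (16 : ℤ) ∣ B) : (fA A B).b₂ = B - A := by
  have h := fA_a₂ h4 h16
  have h1 : (fA A B).a₁ = 1 := rfl
  rw [WeierstrassCurve.b₂, h1, h]; ring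

theorem fA_b₄ (h16 : (16 : ℤ) ∣ B) : 8 * (fA A B).b₄ = -(A * B) := by
  have h := fA_a₄ (A := A) h16
  have h1 : (fA A B).a₃ = 0 := rfl
  rw [WeierstrassCurve.b₄, h1]
  linear_combination h

theorem fA_b₆ : (fA A B).b₆ = 0 := by
  have h3 : (fA A B).a₃ = 0 := rfl
  have h6 : (fA A B).a₆ = 0 := rfl
  rw [WeierstrassCurve.b₆, h3, h6]; ring

/-- `c₄` of the Frey curve. -/
theorem fA_c₄ (h4 : (4 : ℤ) ∣ A + 1) (h16 : (16 : ℤ) ∣ B) :
    (fA A B).c₄ = A ^ 2 + A * B + B ^ 2 := by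
  have h2 := fA_b₂ h4 h16
  have h8 := fA_b₄ (A := A) h16
  rw [WeierstrassCurve.c₄, h2]
  linear_combination (-3) * h8

/-- `c₆` of the Frey curve. -/
theorem fA_c₆ (h4 : (4 : ℤ) ∣ A + 1) (h16 : (16 : ℤ) ∣ B) :
    2 * (fA A B).c₆ = (A - B) * (2 * A + B) * (A + 2 * B) := by
  have h2 := fA_b₂ h4 h16
  have h8 := fA_b₄ (A := A) h16
  have h6 := fA_b₆ (A := A) (B := B)
  rw [WeierstrassCurve.c₆, h2, h6]
  linear_combination 9 * (B - A) * h8

/-- The discriminant of the Frey curve. -/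
theorem fA_Δ (h4 : (4 : ℤ) ∣ A + 1) (h16 : (16 : ℤ) ∣ B) :
    2 ^ 8 * (fA A B).Δ = (A * B * (A + B)) ^ 2 := by
  have h2 := fA_a₂ h4 h16
  have h8 := fA_a₄ (A := A) h16
  have h1 : (fA A B).a₁ = 1 := rfl
  have h3 : (fA A B).a₃ = 0 := rfl
  have h6 : (fA A B).a₆ = 0 := rfl
  rw [WeierstrassCurve.Δ, WeierstrassCurve.b₈, WeierstrassCurve.b₂, WeierstrassCurve.b₄,
    WeierstrassCurve.b₆, h1, h3, h6, h2]
  generalize (fA A B).a₄ = n at *
  have hAB : A * B = -(16 * n) := by linarith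
  have e2 : (A * B * (A + B)) ^ 2 = (A * B) ^ 2 * ((B - A) ^ 2 + 4 * (A * B)) := by ring
  rw [e2, hAB]
  ring

/-- The map to `ℚ` is the curve with fractional coefficients. -/
theorem fA_map (h4 : (4 : ℤ) ∣ A + 1) (h16 : (16 : ℤ) ∣ B) :
    (fA A B).map (Int.castRingHom ℚ) =
      ⟨1, ((B : ℚ) - A - 1) / 4, 0, -((A : ℚ) * B) / 16, 0⟩ := by
  have h2 : (4 : ℚ) * ((fA A B).a₂ : ℚ) = B - A - 1 := by exact_mod_cast fA_a₂ h4 h16
  have h8 : (16 : ℚ) * ((fA A B).a₄ : ℚ) = -(A * B) := by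
    exact_mod_cast fA_a₄ (A := A) h16
  ext
  · simp [fA]
  · simp only [WeierstrassCurve.map_a₂, eq_intCast]
    linarith
  · simp [fA]
  · simp only [WeierstrassCurve.map_a₄, eq_intCast]
    linarith
  · simp [fA]

namespace FreyTriple

theorem Δ_eq (h : FreyTriple A B C) : 2 ^ 8 * (fA A B).Δ = (A * B * C) ^ 2 := by
  have e : C = -(A + B) := by linarith [h.sum]
  rw [fA_Δ h.four h.sixteen, e]; ring

theorem c₄_eq (h : FreyTriple A B C) : (fA A B).c₄ = A ^ 2 + A * B + B ^ 2 :=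
  fA_c₄ h.four h.sixteen

theorem ne_zero (h : FreyTriple A B C) : A * B * C ≠ 0 :=
  mul_ne_zero (mul_ne_zero h.ne_A h.ne_B) h.ne_C

theorem Δ_ne_zero (h : FreyTriple A B C) : (fA A B).Δ ≠ 0 := by
  intro h0
  have h1 := h.Δ_eq
  rw [h0, mul_zero] at h1
  exact pow_ne_zero _ h.ne_zero h1.symm

theorem cop_AC (h : FreyTriple A B C) : IsCoprime A C := by
  have e : C = -B + A * (-1) := by linarith [h.sum]
  rw [e]
  exact IsCoprime.add_mul_left_right h.cop.neg_right _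

theorem cop_BC (h : FreyTriple A B C) : IsCoprime B C := by
  have e : C = -A + B * (-1) := by linarith [h.sum]
  rw [e]
  exact IsCoprime.add_mul_left_right h.cop.symm.neg_right _

theorem odd_A (h : FreyTriple A B C) : ¬ (2 : ℤ) ∣ A := by
  have := h.four
  omega

theorem odd_C (h : FreyTriple A B C) : ¬ (2 : ℤ) ∣ C := by
  have h1 := h.four
  have h2 := h.sixteen
  have h3 := h.sum
  omega

/-- A prime dividing the discriminant divides `A B C`. -/
theorem dvd_of_dvd_Δ (h : FreyTriple A B C) {q : ℕ} (hq : q.Prime)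
    (hd : (q : ℤ) ∣ (fA A B).Δ) : (q : ℤ) ∣ A * B * C := by
  have h1 : (q : ℤ) ∣ (A * B * C) ^ 2 := by
    rw [← h.Δ_eq]; exact hd.mul_left _
  exact (Nat.prime_iff_prime_int.1 hq).dvd_of_dvd_pow h1

/-- The valuations of the discriminant, all primes at once. -/
theorem padicValInt_Δ_add (h : FreyTriple A B C) (q : ℕ) [Fact q.Prime] :
    8 * padicValInt q 2 + padicValInt q (fA A B).Δ = 2 * padicValInt q (A * B * C) := by
  have e := congrArg (padicValInt q) h.Δ_eq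
  rw [padicValInt.mul (by norm_num) h.Δ_ne_zero] at e
  have e1 : padicValInt q ((2 : ℤ) ^ 8) = 8 * padicValInt q 2 := by
    rw [padicValInt, padicValInt, Int.natAbs_pow, padicValNat.pow]
  have e2 : padicValInt q ((A * B * C) ^ 2) = 2 * padicValInt q (A * B * C) := by
    rw [padicValInt, padicValInt, Int.natAbs_pow, padicValNat.pow]
  rw [e1, e2] at e
  exact e

/-- `v_q(Δ) = 2 v_q(ABC)` for odd primes `q`. -/
theorem padicValInt_Δ (h : FreyTriple A B C) {q : ℕ} (hq : q.Prime) (hq2 : q ≠ 2) :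
    padicValInt q (fA A B).Δ = 2 * padicValInt q (A * B * C) := by
  have : Fact q.Prime := ⟨hq⟩
  have e := h.padicValInt_Δ_add q
  have e0 : padicValInt q 2 = 0 := by
    rw [padicValInt.eq_zero_iff]
    right; right
    intro hd
    have h1 : q ∣ 2 := by exact_mod_cast hd
    exact hq2 ((Nat.prime_dvd_prime_iff_eq hq Nat.prime_two).1 h1)
  omega

/-- `v₂(ABC) = v₂(B)`. -/
theorem padicValInt_two_abc (h : FreyTriple A B C) :
    padicValInt 2 (A * B * C) = padicValInt 2 B := by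
  have : Fact (Nat.Prime 2) := ⟨Nat.prime_two⟩
  have eA : padicValInt 2 A = 0 := by
    rw [padicValInt.eq_zero_iff]; exact Or.inr (Or.inr (by exact_mod_cast h.odd_A))
  have eC : padicValInt 2 C = 0 := by
    rw [padicValInt.eq_zero_iff]; exact Or.inr (Or.inr (by exact_mod_cast h.odd_C))
  rw [padicValInt.mul (mul_ne_zero h.ne_A h.ne_B) h.ne_C, padicValInt.mul h.ne_A h.ne_B, eA, eC]
  omega

/-- `4 ≤ v₂(B)`. -/
theorem four_le_padicValInt (h : FreyTriple A B C) : 4 ≤ padicValInt 2 B := by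
  have : Fact (Nat.Prime 2) := ⟨Nat.prime_two⟩
  have h1 : ((2 : ℕ) : ℤ) ^ 4 ∣ B := by
    have := h.sixteen
    norm_num; exact this
  exact ((padicValInt_dvd_iff 4 B).1 h1).resolve_left h.ne_B

/-- `v₂(Δ) = 2 (v₂(B) - 4)`. -/
theorem padicValInt_two_Δ (h : FreyTriple A B C) :
    padicValInt 2 (fA A B).Δ = 2 * (padicValInt 2 B - 4) := by
  have : Fact (Nat.Prime 2) := ⟨Nat.prime_two⟩
  have e := h.padicValInt_Δ_add 2
  have e0 : padicValInt 2 2 = 1 := by
    rw [padicValInt]; exact padicValNat.self (by norm_num)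
  rw [e0, h.padicValInt_two_abc] at e
  have := h.four_le_padicValInt
  omega

/-- `v₂(Δ) = 2 (v₂(ABC) - 4)`. -/
theorem padicValInt_two_Δ' (h : FreyTriple A B C) :
    padicValInt 2 (fA A B).Δ = 2 * (padicValInt 2 (A * B * C) - 4) := by
  rw [h.padicValInt_two_abc, h.padicValInt_two_Δ]

/-- The Frey curve is semistable. -/
theorem isSemistableModel (h : FreyTriple A B C) : (fA A B).IsSemistableModel := by
  intro q hq hΔ hc₄
  have hq' : Prime (q : ℤ) := Nat.prime_iff_prime_int.1 hq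
  have habc := h.dvd_of_dvd_Δ hq hΔ
  rw [h.c₄_eq] at hc₄
  have hab : ¬ ((q : ℤ) ∣ A ∧ (q : ℤ) ∣ B) := fun ⟨h1, h2⟩ =>
    hq'.not_isUnit (h.cop.isUnit_of_dvd' h1 h2)
  have hC : (q : ℤ) ∣ C → (q : ℤ) ∣ A + B := fun h1 => by
    have e : A + B = -C := by linarith [h.sum]
    rw [e]; exact h1.neg_right
  rcases hq'.dvd_or_dvd habc with h1 | h1
  · rcases hq'.dvd_or_dvd h1 with h1 | h1
    · have h2 : (q : ℤ) ∣ B ^ 2 := by
        have e : B ^ 2 = (A ^ 2 + A * B + B ^ 2) - A * (A + B) := by ring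
        rw [e]; exact dvd_sub hc₄ (h1.mul_right _)
      exact hab ⟨h1, hq'.dvd_of_dvd_pow h2⟩
    · have h2 : (q : ℤ) ∣ A ^ 2 := by
        have e : A ^ 2 = (A ^ 2 + A * B + B ^ 2) - B * (A + B) := by ring
        rw [e]; exact dvd_sub hc₄ (h1.mul_right _)
      exact hab ⟨hq'.dvd_of_dvd_pow h2, h1⟩
  · have h1 := hC h1
    have h2 : (q : ℤ) ∣ A * B := by
      have e : A * B = (A + B) * (A + B) - (A ^ 2 + A * B + B ^ 2) := by ring
      rw [e]; exact dvd_sub (h1.mul_right _) hc₄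
    rcases hq'.dvd_or_dvd h2 with h3 | h3
    · exact hab ⟨h3, (dvd_add_right h3).1 h1⟩
    · exact hab ⟨(dvd_add_left h3).1 h1, h3⟩

/-- At an odd prime dividing `ABC` (and at `2` if `32 ∣ B`) the reduction is multiplicative. -/
theorem dvd_Δ_iff (h : FreyTriple A B C) {q : ℕ} (hq : q.Prime) (hq2 : q ≠ 2) :
    (q : ℤ) ∣ (fA A B).Δ ↔ (q : ℤ) ∣ A * B * C := by
  refine ⟨h.dvd_of_dvd_Δ hq, fun h1 => ?_⟩
  have h2 : (q : ℤ) ∣ 2 ^ 8 * (fA A B).Δ := by
    rw [h.Δ_eq]; exact dvd_pow h1 two_ne_zero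
  refine ((Nat.prime_iff_prime_int.1 hq).dvd_or_dvd h2).resolve_left fun h3 => ?_
  have h4 : q ∣ 2 := by exact_mod_cast (Nat.prime_iff_prime_int.1 hq).dvd_of_dvd_pow h3
  exact hq2 ((Nat.prime_dvd_prime_iff_eq hq Nat.prime_two).1 h4)

theorem two_dvd_Δ_iff (h : FreyTriple A B C) : (2 : ℤ) ∣ (fA A B).Δ ↔ (32 : ℤ) ∣ B := by
  have : Fact (Nat.Prime 2) := ⟨Nat.prime_two⟩
  have e := h.padicValInt_two_Δ
  have e4 := h.four_le_padicValInt
  have i1 : (2 : ℤ) ∣ (fA A B).Δ ↔ 1 ≤ padicValInt 2 (fA A B).Δ := by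
    have := padicValInt_dvd_iff (p := 2) 1 (fA A B).Δ
    rw [pow_one] at this
    exact_mod_cast this.trans ⟨fun h1 => h1.resolve_left h.Δ_ne_zero, Or.inr⟩
  have i2 : (32 : ℤ) ∣ B ↔ 5 ≤ padicValInt 2 B := by
    have := padicValInt_dvd_iff (p := 2) 5 B
    have e32 : (((2 : ℕ) : ℤ) ^ 5) = 32 := by norm_num
    rw [e32] at this
    exact this.trans ⟨fun h1 => h1.resolve_left h.ne_B, Or.inr⟩
  rw [i1, i2]
  omega

end FreyTriple

/-- Every coprime non-zero triple with sum zero and `16 ∣ ABC` can be permuted and multiplied by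
`±1` such that it becomes normalised; the product changes by a sign. -/
theorem exists_freyTriple (hs : A + B + C = 0) (hc : IsCoprime A B) (hA : A ≠ 0) (hB : B ≠ 0)
    (hC : C ≠ 0) (h16 : (16 : ℤ) ∣ A * B * C) :
    ∃ A' B' C' : ℤ, FreyTriple A' B' C' ∧
      (A' * B' * C' = A * B * C ∨ A' * B' * C' = -(A * B * C)) := by
  -- first: the even one in the middle
  have key : ∀ A B C : ℤ, A + B + C = 0 → IsCoprime A B → A ≠ 0 → B ≠ 0 → C ≠ 0 →
      (2 : ℤ) ∣ B → (16 : ℤ) ∣ A * B * C →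
      ∃ A' B' C' : ℤ, FreyTriple A' B' C' ∧
        (A' * B' * C' = A * B * C ∨ A' * B' * C' = -(A * B * C)) := by
    intro A B C hs hc hA hB hC h2 h16
    have hA2 : ¬ (2 : ℤ) ∣ A := fun h => Int.prime_two.not_isUnit (hc.isUnit_of_dvd' h h2)
    have hC2 : ¬ (2 : ℤ) ∣ C := fun h => hA2 (by
      have e : A = -C - B := by linarith
      rw [e]; exact dvd_sub h.neg_right h2)
    have h16B : (16 : ℤ) ∣ B := by
      have c2 : ∀ x : ℤ, ¬ (2 : ℤ) ∣ x → IsCoprime (16 : ℤ) x := by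
        intro x hx
        have : IsCoprime ((2 : ℤ) ^ 4) x := ((Int.prime_two.coprime_iff_not_dvd).2 hx).pow_left
        simpa using this
      have h1 := (c2 C hC2).dvd_of_dvd_mul_right h16
      exact (c2 A hA2).dvd_of_dvd_mul_left h1
    rcases (by omega : (4 : ℤ) ∣ A + 1 ∨ (4 : ℤ) ∣ -A + 1) with h4 | h4
    · exact ⟨A, B, C, ⟨hs, hc, hA, hB, hC, h4, h16B⟩, Or.inl rfl⟩
    · exact ⟨-A, -B, -C, ⟨by linarith, hc.neg_neg, neg_ne_zero.2 hA, neg_ne_zero.2 hB,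
        neg_ne_zero.2 hC, h4, h16B.neg_right⟩, Or.inr (by ring)⟩
  have h2 : (2 : ℤ) ∣ A * B * C := dvd_trans (by norm_num) h16
  have hcAC : IsCoprime A C := by
    have e : C = -B + A * (-1) := by linarith
    rw [e]; exact IsCoprime.add_mul_left_right hc.neg_right _
  rcases Int.prime_two.dvd_or_dvd h2 with h | h
  · rcases Int.prime_two.dvd_or_dvd h with h | h
    · obtain ⟨A', B', C', h1, h3⟩ := key B A C (by linarith) hc.symm hB hA hC h
        (by rw [mul_comm B A]; exact h16)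
      refine ⟨A', B', C', h1, ?_⟩
      rwa [mul_comm B A] at h3
    · exact key A B C hs hc hA hB hC h h16
  · obtain ⟨A', B', C', h1, h3⟩ := key A C B (by linarith) hcAC hA hC hB h
      (by rw [mul_right_comm]; exact h16)
    refine ⟨A', B', C', h1, ?_⟩
    rwa [mul_right_comm A C B] at h3

end Fermat.Agent.Cor
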