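import Mathlib
import Fermat.Agent.Corollaries.K4.Defs
import Fermat.Agent.Corollaries.K4.Frey

/-!
# Corollaries, K4: the level of the Frey curve of `(A, B, C)`
-/

set_option autoImplicit false

namespace Fermat.Agent.Cor

theorem mem_primeFactors_iff_padicValInt {n : ℤ} (hn : n ≠ 0) {q : ℕ} (hq : q.Prime) :
    q ∈ n.natAbs.primeFactors ↔ padicValInt q n ≠ 0 := by
  have : Fact q.Prime := ⟨hq⟩
  rw [Nat.mem_primeFactors, padicValInt]
  constructor
  · rintro ⟨-, h, h0⟩
    exact Nat.one_le_iff_ne_zero.mp (one_le_padicValNat_of_dvd h0 h)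
  · intro h
    exact ⟨hq, dvd_of_one_le_padicValNat (Nat.one_le_iff_ne_zero.mpr h), Int.natAbs_ne_zero.mpr hn⟩

/-- **The level**: the product of the primes `q` with `p ∤ v_q(Δ)` is `freyLevel p n` if
`v_q(Δ) = 2 v_q(n)` for odd `q` and `v_2(Δ) = 2 (v_2(n) - 4)`. -/
theorem prod_eq_freyLevel {p : ℕ} (hp : p.Prime) (hp2 : p ≠ 2) {n D : ℤ} (hn : n ≠ 0) (hD : D ≠ 0)
    (hodd : ∀ q : ℕ, q.Prime → q ≠ 2 → padicValInt q D = 2 * padicValInt q n)
    (htwo : padicValInt 2 D = 2 * (padicValInt 2 n - 4)) :
    ∏ q ∈ D.natAbs.primeFactors with ¬ p ∣ padicValInt q D, q = freyLevel p n := by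
  have hco : ∀ m : ℕ, p ∣ 2 * m ↔ p ∣ m := by
    intro m
    have h2 : Nat.Coprime p 2 := (Nat.coprime_primes hp Nat.prime_two).mpr hp2
    exact ⟨fun h => h2.dvd_of_dvd_mul_left h, fun h => h.mul_left 2⟩
  have hset : D.natAbs.primeFactors.filter (fun q => ¬ p ∣ padicValInt q D) =
      (n.natAbs.primeFactors.erase 2).filter (fun q => ¬ p ∣ padicValInt q n) ∪
        (if p ∣ padicValInt 2 n - 4 then ∅ else {2}) := by
    ext q
    rw [Finset.mem_union, Finset.mem_filter, Finset.mem_filter, Finset.mem_erase]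
    by_cases hq : q.Prime
    · rw [mem_primeFactors_iff_padicValInt hD hq, mem_primeFactors_iff_padicValInt hn hq]
      rcases eq_or_ne q 2 with rfl | h2
      · rw [htwo, hco]
        split_ifs with h
        · simp [h]
        · have h0 : padicValInt 2 n - 4 ≠ 0 := fun h0 => h (h0 ▸ dvd_zero p)
          simp [h, h0]
      · have hs : q ∉ (if p ∣ padicValInt 2 n - 4 then (∅ : Finset ℕ) else {2}) := by
          split_ifs
          · exact Finset.notMem_empty q
          · rwa [Finset.mem_singleton]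
        rw [hodd q hq h2, hco]
        simp only [hs, or_false, h2, ne_eq, not_false_eq_true, true_and, mul_eq_zero,
          OfNat.ofNat_ne_zero, false_or]
    · have h1 : q ∉ D.natAbs.primeFactors := fun h => hq (Nat.prime_of_mem_primeFactors h)
      have h2 : q ∉ n.natAbs.primeFactors := fun h => hq (Nat.prime_of_mem_primeFactors h)
      have h3 : q ∉ (if p ∣ padicValInt 2 n - 4 then (∅ : Finset ℕ) else {2}) := by
        split_ifs
        · exact Finset.notMem_empty q
        · rw [Finset.mem_singleton]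
          rintro rfl
          exact hq Nat.prime_two
      simp [h1, h2, h3]
  rw [hset, Finset.prod_union, freyLevel]
  · congr 1
    split_ifs
    · rfl
    · exact Finset.prod_singleton _ _
  · rw [Finset.disjoint_left]
    intro q hq hq'
    rw [Finset.mem_filter, Finset.mem_erase] at hq
    split_ifs at hq' with h
    · exact Finset.notMem_empty q hq'
    · exact hq.1.1 (Finset.mem_singleton.mp hq')

/-- The level of the Frey curve. -/
theorem FreyTriple.level {A B C : ℤ} (h : FreyTriple A B C) {p : ℕ} (hp : p.Prime) (hp2 : p ≠ 2) :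
    ∏ q ∈ (fA A B).Δ.natAbs.primeFactors with ¬ p ∣ padicValInt q (fA A B).Δ, q =
      freyLevel p (A * B * C) :=
  prod_eq_freyLevel hp hp2 h.ne_zero h.Δ_ne_zero (fun _ hq h2 => h.padicValInt_Δ hq h2)
    h.padicValInt_two_Δ'

end Fermat.Agent.Cor
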