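import Fermat.Agent.Corollaries.K4.Defs
import Fermat.Agent.Corollaries.K4.Level
import Fermat.Prelude.Def_FLTPrelim_ModularRep

/-!
# Corollaries, K4: from the Frey curve to the form of weight two

Reduction of `SerreFrey p` to the Frey curves of normalised triples.
-/

set_option autoImplicit false

open WeierstrassCurve CongruenceSubgroup

namespace Fermat.Agent.Cor

theorem freyLevel_neg (p : ℕ) (n : ℤ) : freyLevel p (-n) = freyLevel p n := by
  have e : ∀ q : ℕ, padicValInt q (-n) = padicValInt q n := fun q => by
    rw [padicValInt, padicValInt, Int.natAbs_neg]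
  simp only [freyLevel, e, Int.natAbs_neg]

/-- If every normalised triple gives a form of the level of its Frey curve, the exponent `p`
satisfies `SerreFrey p`. -/
theorem serreFrey_of {p : ℕ} (hp : p.Prime) (hp2 : p ≠ 2)
    (hform : ∀ A B C : ℤ, FreyTriple A B C →
      ∃ f : CuspForm (Gamma0
        (∏ q ∈ (fA A B).Δ.natAbs.primeFactors with ¬ p ∣ padicValInt q (fA A B).Δ, q)) 2, f ≠ 0) :
    SerreFrey p := by
  intro A B C hA hB hC hs hc h16
  obtain ⟨A', B', C', h', he⟩ := exists_freyTriple hs hc hA hB hC h16
  have e : freyLevel p (A' * B' * C') = freyLevel p (A * B * C) := by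
    rcases he with he | he
    · rw [he]
    · rw [he, freyLevel_neg]
  have := hform A' B' C' h'
  rwa [h'.level hp hp2, e] at this

/-- **K4 from K2 and K3**: irreducibility of the representations of the Frey curves and the
existence of the form for every semistable curve with irreducible representation. -/
theorem serreFrey_of_irreducible {p : ℕ} (hp : p.Prime) (hp2 : p ≠ 2)
    (hirr : ∀ A B C : ℤ, FreyTriple A B C → (fA A B).ModRepIsIrreducible p)
    (hform : ∀ W : WeierstrassCurve ℤ, W.Δ ≠ 0 → W.IsSemistableModel →
      W.ModRepIsIrreducible p → ∃ f : CuspForm (Gamma0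
        (∏ q ∈ W.Δ.natAbs.primeFactors with ¬ p ∣ padicValInt q W.Δ, q)) 2, f ≠ 0) :
    SerreFrey p :=
  serreFrey_of hp hp2 fun A B C h =>
    hform (fA A B) h.Δ_ne_zero h.isSemistableModel (hirr A B C h)

end Fermat.Agent.Cor
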