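import Mathlib
import Fermat.Agent.LTF.Chain.Irr5
import Fermat.Agent.Corollaries.K4.Main

/-!
# Corollaries, K4: the exponent `5`

A semistable curve over `ℚ` whose discriminant is a square has an irreducible representation on
the points of order `5`. The proof is a descent on `z² = x⁴ + 22 x² y² + 125 y⁴`.
-/

set_option autoImplicit false

open WeierstrassCurve CongruenceSubgroup

namespace Fermat.Agent.Cor

theorem odd_sq_form {x : ℤ} (hx : ¬ (2 : ℤ) ∣ x) : ∃ k : ℤ, x ^ 2 = 8 * k + 1 := by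
  obtain ⟨a, ha⟩ : ∃ a : ℤ, x = 2 * a + 1 := ⟨x / 2, by omega⟩
  obtain ⟨k, hk⟩ : ∃ k : ℤ, a * (a + 1) = 2 * k := by
    obtain ⟨k, hk⟩ := Int.even_mul_succ_self a
    exact ⟨k, by linarith⟩
  exact ⟨k, by rw [ha]; linear_combination 4 * hk⟩

theorem quartic_parity {x y z : ℤ} (hc : IsCoprime x y)
    (h : z ^ 2 = x ^ 4 + 22 * x ^ 2 * y ^ 2 + 125 * y ^ 4) : ¬ (2 : ℤ) ∣ x ∧ (2 : ℤ) ∣ y := by
  have hxy : ¬ ((2 : ℤ) ∣ x ∧ (2 : ℤ) ∣ y) := fun ⟨h1, h2⟩ =>
    Int.prime_two.not_isUnit (hc.isUnit_of_dvd' h1 h2)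
  have hy : (2 : ℤ) ∣ y := by
    by_contra hy
    obtain ⟨l, hl⟩ := odd_sq_form hy
    by_cases hx : (2 : ℤ) ∣ x
    · obtain ⟨a, rfl⟩ := hx
      have hz : ¬ (2 : ℤ) ∣ z := by
        intro ⟨w, hw⟩
        have : 2 * (2 * w ^ 2) = 2 * (8 * a ^ 4 + 44 * a ^ 2 * y ^ 2 + 62 * y ^ 4 + 4 * (8 * l ^ 2 + 2 * l)) + 1 := by
          have e4 : y ^ 4 = (8 * l + 1) ^ 2 := by rw [← hl]; ring
          rw [hw] at h
          linear_combination h + e4
        omega
      obtain ⟨m, hm⟩ := odd_sq_form hz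
      have : 8 * m + 1 = 8 * (2 * a ^ 4 + 11 * a ^ 2 * y ^ 2 + 1000 * l ^ 2 + 250 * l + 15) + 5 := by
        have e4 : y ^ 4 = (8 * l + 1) ^ 2 := by rw [← hl]; ring
        linear_combination h - hm + 125 * e4
      omega
    · obtain ⟨k, hk⟩ := odd_sq_form hx
      have e : z ^ 2 = 4 * (8 * (6 * k + 68 * l + 2 * (k ^ 2 + 22 * k * l + 125 * l ^ 2) + 4) + 5) := by
        have e1 : x ^ 4 = (8 * k + 1) ^ 2 := by rw [← hk]; ring
        have e2 : y ^ 4 = (8 * l + 1) ^ 2 := by rw [← hl]; ring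
        have e3 : x ^ 2 * y ^ 2 = (8 * k + 1) * (8 * l + 1) := by rw [hk, hl]
        linear_combination h + e1 + 125 * e2 + 22 * e3
      have hz : (2 : ℤ) ∣ z := by
        apply Int.prime_two.dvd_of_dvd_pow (n := 2)
        rw [e]; exact ⟨2 * (8 * (6 * k + 68 * l + 2 * (k ^ 2 + 22 * k * l + 125 * l ^ 2) + 4) + 5), by ring⟩
      obtain ⟨w, rfl⟩ := hz
      have e' : w ^ 2 = 8 * (6 * k + 68 * l + 2 * (k ^ 2 + 22 * k * l + 125 * l ^ 2) + 4) + 5 := by
        linarith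
      have hw : ¬ (2 : ℤ) ∣ w := by
        rintro ⟨v, rfl⟩
        have : 2 * (2 * v ^ 2) = 2 * (4 * (6 * k + 68 * l + 2 * (k ^ 2 + 22 * k * l + 125 * l ^ 2) + 4) + 2) + 1 := by
          linarith
        omega
      obtain ⟨m, hm⟩ := odd_sq_form hw
      omega
  exact ⟨fun hx => hxy ⟨hx, hy⟩, hy⟩

theorem sq_ne_two_mul_sq_mod_five : ∀ r t : ZMod 5, r ^ 2 = 22 * t ^ 2 → t = 0 := by decide

/-- Splitting `u v = 125 t⁴`. -/
theorem split_aux {u v t : ℤ} (hc : IsCoprime u v) (h : u * v = 125 * t ^ 4) (ht : t ≠ 0)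
    (h5 : (5 : ℤ) ∣ u) :
    ∃ a b : ℤ, IsCoprime a b ∧ t ^ 2 = a ^ 2 * b ^ 2 ∧
      ((v = a ^ 4 ∧ u = 125 * b ^ 4) ∨ (v = -a ^ 4 ∧ u = -(125 * b ^ 4))) := by
  have p5 : Prime (5 : ℤ) := by
    have := Nat.prime_iff_prime_int.1 Nat.prime_five
    exact_mod_cast this
  have hv5 : ¬ (5 : ℤ) ∣ v := fun h1 => p5.not_isUnit (hc.isUnit_of_dvd' h5 h1)
  have c125 : IsCoprime (125 : ℤ) v := by
    have : IsCoprime ((5 : ℤ) ^ 3) v := (p5.coprime_iff_not_dvd.2 hv5).pow_left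
    simpa using this
  obtain ⟨w, hw⟩ : (125 : ℤ) ∣ u := c125.dvd_of_dvd_mul_right ⟨t ^ 4, h⟩
  have hwv : w * v = t ^ 4 := by
    rw [hw] at h
    linarith
  have hcw : IsCoprime w v := by
    rw [hw] at hc
    exact hc.of_mul_left_right
  obtain ⟨b, hb⟩ := exists_associated_pow_of_mul_eq_pow' hcw hwv
  obtain ⟨a, ha⟩ := exists_associated_pow_of_mul_eq_pow' hcw.symm ((mul_comm v w).trans hwv)
  have hb' : w = b ^ 4 ∨ w = -b ^ 4 := by
    rcases Int.associated_iff.1 hb with h1 | h1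
    · exact Or.inl h1.symm
    · exact Or.inr (by rw [h1, neg_neg])
  have ha' : v = a ^ 4 ∨ v = -a ^ 4 := by
    rcases Int.associated_iff.1 ha with h1 | h1
    · exact Or.inl h1.symm
    · exact Or.inr (by rw [h1, neg_neg])
  have hcab : IsCoprime a b := by
    have h1 : IsCoprime (b ^ 4) (a ^ 4) := by
      rcases hb' with h1 | h1 <;> rcases ha' with h2 | h2 <;> rw [h1, h2] at hcw
      · exact hcw
      · exact (IsCoprime.neg_right_iff _ _).1 hcw
      · exact (IsCoprime.neg_left_iff _ _).1 hcw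
      · exact (IsCoprime.neg_left_iff _ _).1 ((IsCoprime.neg_right_iff _ _).1 hcw)
    exact ((IsCoprime.pow_iff (by norm_num) (by norm_num)).1 h1).symm
  have ht4 : 0 < t ^ 4 := by positivity
  have hpos : 0 < a ^ 4 * b ^ 4 ∨ a ^ 4 * b ^ 4 = 0 := by
    rcases eq_or_ne (a ^ 4 * b ^ 4) 0 with h1 | h1
    · exact Or.inr h1
    · exact Or.inl (lt_of_le_of_ne (by positivity) h1.symm)
  have sq_of : t ^ 4 = a ^ 4 * b ^ 4 → t ^ 2 = a ^ 2 * b ^ 2 := by
    intro h1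
    have h2 : (t ^ 2) ^ 2 = (a ^ 2 * b ^ 2) ^ 2 := by linear_combination h1
    exact (sq_eq_sq₀ (by positivity) (by positivity)).1 h2
  refine ⟨a, b, hcab, ?_⟩
  rcases hb' with h1 | h1 <;> rcases ha' with h2 | h2
  · exact ⟨sq_of (by rw [← hwv, h1, h2]; ring), Or.inl ⟨h2, by rw [hw, h1]⟩⟩
  · exfalso
    have : t ^ 4 = -(a ^ 4 * b ^ 4) := by rw [← hwv, h1, h2]; ring
    rcases hpos with h3 | h3 <;> linarith
  · exfalso
    have : t ^ 4 = -(a ^ 4 * b ^ 4) := by rw [← hwv, h1, h2]; ring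
    rcases hpos with h3 | h3 <;> linarith
  · exact ⟨sq_of (by rw [← hwv, h1, h2]; ring), Or.inr ⟨h2, by rw [hw, h1]; ring⟩⟩

/-- The second curve of the descent: `x² = r⁴ - 11 r² s² - s⁴`. -/
theorem second_aux {x r s : ℤ} (hc : IsCoprime r s) (hr : ¬ (2 : ℤ) ∣ r) (hs : (2 : ℤ) ∣ s)
    (hs0 : s ≠ 0) (hx : ¬ (2 : ℤ) ∣ x)
    (h : x ^ 2 = r ^ 4 - 11 * r ^ 2 * s ^ 2 - s ^ 4) :
    ∃ a b : ℤ, IsCoprime a b ∧ b ≠ 0 ∧ b ^ 2 < s ^ 2 ∧
      r ^ 2 = a ^ 4 + 22 * a ^ 2 * b ^ 2 + 125 * b ^ 4 := by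
  obtain ⟨t, rfl⟩ := hs
  have ht : t ≠ 0 := by rintro rfl; exact hs0 (mul_zero 2)
  have ho : ¬ (2 : ℤ) ∣ r ^ 2 - 22 * t ^ 2 := fun h1 => hr (by
    apply Int.prime_two.dvd_of_dvd_pow (n := 2)
    have e : r ^ 2 = (r ^ 2 - 22 * t ^ 2) + 2 * (11 * t ^ 2) := by ring
    rw [e]; exact dvd_add h1 (dvd_mul_right _ _))
  obtain ⟨u, hu⟩ : ∃ u : ℤ, r ^ 2 - 22 * t ^ 2 - x = 2 * u := ⟨(r ^ 2 - 22 * t ^ 2 - x) / 2, by omega⟩
  obtain ⟨v, hv⟩ : ∃ v : ℤ, r ^ 2 - 22 * t ^ 2 + x = 2 * v := ⟨(r ^ 2 - 22 * t ^ 2 + x) / 2, by omega⟩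
  have huv : u * v = 125 * t ^ 4 := by
    have : 4 * (u * v) = 4 * (125 * t ^ 4) := by
      calc 4 * (u * v) = (2 * u) * (2 * v) := by ring
        _ = (r ^ 2 - 22 * t ^ 2) ^ 2 - x ^ 2 := by rw [← hu, ← hv]; ring
        _ = 4 * (125 * t ^ 4) := by rw [h]; ring
    linarith
  have hsum : u + v = r ^ 2 - 22 * t ^ 2 := by linarith
  have hcuv : IsCoprime u v := by
    refine isCoprime_of_prime_dvd ?_ ?_
    · rintro ⟨h1, h2⟩
      rw [h1, h2] at hsum
      exact ho (by rw [← hsum]; exact dvd_zero _)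
    · intro p hp h1 h2
      have hp2 : p ^ 2 ∣ 125 * t ^ 4 := by
        rw [← huv, pow_two]; exact mul_dvd_mul h1 h2
      have h3 : p ∣ r ^ 2 - 22 * t ^ 2 := by rw [← hsum]; exact dvd_add h1 h2
      have hpt : ¬ p ∣ t := by
        intro h4
        have h5 : p ∣ r ^ 2 := by
          have e : r ^ 2 = (r ^ 2 - 22 * t ^ 2) + t * (22 * t) := by ring
          rw [e]; exact dvd_add h3 (h4.mul_right _)
        exact hp.not_isUnit (hc.isUnit_of_dvd' (hp.dvd_of_dvd_pow h5) (h4.mul_left 2))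
      have h6 : p ∣ 125 * t ^ 4 := (dvd_pow_self p two_ne_zero).trans hp2
      have h7 : p ∣ (5 : ℤ) := by
        rcases hp.dvd_or_dvd h6 with h7 | h7
        · have e : (125 : ℤ) = 5 ^ 3 := by norm_num
          rw [e] at h7
          exact hp.dvd_of_dvd_pow h7
        · exact absurd (hp.dvd_of_dvd_pow h7) hpt
      have p5 : Prime (5 : ℤ) := by
        have := Nat.prime_iff_prime_int.1 Nat.prime_five
        exact_mod_cast this
      have h8 : Associated p 5 := (hp.dvd_prime_iff_associated p5).1 h7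
      have h9 : (5 : ℤ) ∣ r ^ 2 - 22 * t ^ 2 := (h8.dvd_iff_dvd_left).1 h3
      have h10 : ((r : ZMod 5)) ^ 2 = 22 * (t : ZMod 5) ^ 2 := by
        have := (ZMod.intCast_zmod_eq_zero_iff_dvd (r ^ 2 - 22 * t ^ 2) 5).2 (by exact_mod_cast h9)
        push_cast at this
        exact sub_eq_zero.1 this
      have h11 := sq_ne_two_mul_sq_mod_five _ _ h10
      have h12 : (5 : ℤ) ∣ t := by
        have := (ZMod.intCast_zmod_eq_zero_iff_dvd t 5).1 h11
        exact_mod_cast this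
      exact hpt ((h8.dvd_iff_dvd_left).2 h12)
  -- `5` divides `u` or `v`
  have key : ∀ u v : ℤ, IsCoprime u v → u * v = 125 * t ^ 4 → u + v = r ^ 2 - 22 * t ^ 2 →
      (5 : ℤ) ∣ u → ∃ a b : ℤ, IsCoprime a b ∧ b ≠ 0 ∧ b ^ 2 < (2 * t) ^ 2 ∧
        r ^ 2 = a ^ 4 + 22 * a ^ 2 * b ^ 2 + 125 * b ^ 4 := by
    intro u v hc h hsum h5
    obtain ⟨a, b, hab, ht2, hcase⟩ := split_aux hc h ht h5
    have ht2pos : 0 < t ^ 2 := by positivity
    have hb0 : b ≠ 0 := by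
      rintro rfl
      rw [ht2] at ht2pos
      simp at ht2pos
    have ha0 : a ≠ 0 := by
      rintro rfl
      rw [ht2] at ht2pos
      simp at ht2pos
    have ha1 : 1 ≤ a ^ 2 := by
      have : 0 < a ^ 2 := by positivity
      linarith
    have hb1 : 0 < b ^ 2 := by positivity
    refine ⟨a, b, hab, hb0, ?_, ?_⟩
    · have : (2 * t) ^ 2 = 4 * (a ^ 2 * b ^ 2) := by rw [← ht2]; ring
      rw [this]
      nlinarith
    · rcases hcase with ⟨h1, h2⟩ | ⟨h1, h2⟩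
      · rw [h1, h2, ht2] at hsum
        linarith
      · exfalso
        rw [h1, h2, ht2] at hsum
        have hr2 : r ^ 2 = -((a ^ 2 - 11 * b ^ 2) ^ 2 + 4 * (b ^ 2) ^ 2) := by
          linear_combination -hsum
        have h3 : 0 < (b ^ 2) ^ 2 := by positivity
        nlinarith [sq_nonneg r, sq_nonneg (a ^ 2 - 11 * b ^ 2)]
  have p5 : Prime (5 : ℤ) := by
    have := Nat.prime_iff_prime_int.1 Nat.prime_five
    exact_mod_cast this
  have h5uv : (5 : ℤ) ∣ u * v := by rw [huv]; exact ⟨25 * t ^ 4, by ring⟩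
  rcases p5.dvd_or_dvd h5uv with h5 | h5
  · exact key u v hcuv huv hsum h5
  · exact key v u hcuv.symm (by rw [mul_comm]; exact huv) (by rw [add_comm]; exact hsum) h5

/-- **Descent.** `z² = x⁴ + 22 x² y² + 125 y⁴` has no coprime solutions with `y ≠ 0`. -/
theorem quartic_five : ∀ n : ℕ, ∀ x y z : ℤ, y.natAbs = n → IsCoprime x y →
    z ^ 2 = x ^ 4 + 22 * x ^ 2 * y ^ 2 + 125 * y ^ 4 → y = 0 := by
  intro n
  induction n using Nat.strong_induction_on with
  | _ n ih =>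
    intro x y z hn hc h
    by_contra hy0
    obtain ⟨hx2, hy2⟩ := quartic_parity hc h
    have hx0 : x ≠ 0 := by rintro rfl; exact hx2 (dvd_zero 2)
    have hy2pos : 0 < y ^ 2 := by positivity
    have hx2pos : 0 < x ^ 2 := by positivity
    have hz0 : z ≠ 0 := by
      rintro rfl
      nlinarith [sq_nonneg (x ^ 2), sq_nonneg (y ^ 2), mul_pos hx2pos hy2pos]
    have hcop : IsCoprime (x ^ 2 + 11 * y ^ 2) (2 * y ^ 2) := by
      apply IsCoprime.mul_right
      · have : ¬ (2 : ℤ) ∣ x ^ 2 + 11 * y ^ 2 := by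
          intro h1
          apply hx2
          apply Int.prime_two.dvd_of_dvd_pow (n := 2)
          have e : x ^ 2 = (x ^ 2 + 11 * y ^ 2) - y * (11 * y) := by ring
          rw [e]; exact dvd_sub h1 (hy2.mul_right _)
        exact ((Int.prime_two.coprime_iff_not_dvd).2 this).symm
      · have h1 : IsCoprime (x ^ 2) (y ^ 2) := IsCoprime.pow hc
        have e : x ^ 2 + 11 * y ^ 2 = x ^ 2 + y ^ 2 * 11 := by ring
        rw [e]
        exact IsCoprime.add_mul_left_left h1 11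
    have hodd : (x ^ 2 + 11 * y ^ 2) % 2 = 1 := by
      have h1 : ¬ (2 : ℤ) ∣ x ^ 2 + 11 * y ^ 2 := fun h1 =>
        Int.prime_two.not_isUnit (hcop.isUnit_of_dvd' h1 (dvd_mul_right _ _))
      omega
    have hpyth : PythagoreanTriple (x ^ 2 + 11 * y ^ 2) (2 * y ^ 2) |z| := by
      unfold PythagoreanTriple
      rw [abs_mul_abs_self]
      linear_combination -h
    obtain ⟨m, k, h1, h2, -, hmk, -, hm0⟩ := hpyth.coprime_classification'
      (Int.isCoprime_iff_gcd_eq_one.1 hcop) hodd (abs_pos.2 hz0)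
    have hmk' : IsCoprime m k := Int.isCoprime_iff_gcd_eq_one.2 hmk
    have hprod : m * k = y ^ 2 := by linarith
    have hmpos : 0 < m := by
      rcases hm0.lt_or_eq with h3 | h3
      · exact h3
      · rw [← h3, zero_mul] at hprod
        linarith
    have hkpos : 0 < k := by
      by_contra h3
      have : m * k ≤ 0 := mul_nonpos_of_nonneg_of_nonpos hmpos.le (not_lt.1 h3)
      linarith
    obtain ⟨r, hr⟩ := Int.sq_of_isCoprime hmk' hprod
    obtain ⟨s, hs⟩ := Int.sq_of_isCoprime hmk'.symm ((mul_comm k m).trans hprod)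
    have hr : m = r ^ 2 := hr.resolve_right fun h3 => by nlinarith [sq_nonneg r]
    have hs : k = s ^ 2 := hs.resolve_right fun h3 => by nlinarith [sq_nonneg s]
    have hyrs : y ^ 2 = r ^ 2 * s ^ 2 := by rw [← hprod, hr, hs]
    have hrs : IsCoprime r s := by
      rw [hr, hs] at hmk'
      exact (IsCoprime.pow_iff (by norm_num) (by norm_num)).1 hmk'
    have hsec : x ^ 2 = r ^ 4 - 11 * r ^ 2 * s ^ 2 - s ^ 4 := by
      rw [hr, hs, hyrs] at h1
      linear_combination h1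
    have hs0 : s ≠ 0 := by
      rintro rfl
      rw [hyrs] at hy2pos
      simp at hy2pos
    have hr0 : r ≠ 0 := by
      rintro rfl
      rw [hyrs] at hy2pos
      simp at hy2pos
    obtain ⟨i, hi⟩ := odd_sq_form hx2
    have hs2 : (2 : ℤ) ∣ s := by
      by_contra hso
      obtain ⟨j, hj⟩ := odd_sq_form hso
      by_cases hre : (2 : ℤ) ∣ r
      · obtain ⟨r', rfl⟩ := hre
        have : 8 * i + 1 = 4 * (4 * r' ^ 4 - 11 * r' ^ 2 * s ^ 2 - (16 * j ^ 2 + 4 * j)) - 1 := by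
          have e4 : s ^ 4 = (8 * j + 1) ^ 2 := by rw [← hj]; ring
          linear_combination hsec - hi - e4
        omega
      · obtain ⟨l, hl⟩ := odd_sq_form hre
        have : 8 * i + 1 = 8 * ((8 * l ^ 2 + 2 * l) - 11 * (8 * l * j + l + j) - (8 * j ^ 2 + 2 * j)) - 11 := by
          have e4 : s ^ 4 = (8 * j + 1) ^ 2 := by rw [← hj]; ring
          have e5 : r ^ 4 = (8 * l + 1) ^ 2 := by rw [← hl]; ring
          have e6 : r ^ 2 * s ^ 2 = (8 * l + 1) * (8 * j + 1) := by rw [hl, hj]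
          linear_combination hsec - hi - e4 + e5 - 11 * e6
        omega
    have hr2 : ¬ (2 : ℤ) ∣ r := fun h3 =>
      Int.prime_two.not_isUnit (hrs.isUnit_of_dvd' h3 hs2)
    obtain ⟨a, b, hab, hb0, hlt, heq⟩ := second_aux hrs hr2 hs2 hs0 hx2 hsec
    refine hb0 (ih b.natAbs ?_ a b r rfl hab heq)
    rw [← hn]
    apply Int.natAbs_lt_iff_sq_lt.2
    have h1r : 1 ≤ r ^ 2 := by
      have : 0 < r ^ 2 := by positivity
      linarith
    rw [hyrs]
    nlinarith [sq_nonneg s]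

/-- A square `Q⁵ H` with `Q, H` coprime, `Q > 0`: both are squares. -/
theorem squares_of_isSquare {H Q : ℤ} (hc : IsCoprime H Q) (hQ : 0 < Q)
    (h : IsSquare (Q ^ 5 * H)) (h0 : Q ^ 5 * H ≠ 0) : ∃ a b : ℤ, H = a ^ 2 ∧ Q = b ^ 2 := by
  obtain ⟨d, hd⟩ := h
  have hH : 0 < H := by
    by_contra h1
    have h2 : 0 < Q ^ 5 := by positivity
    have h3 : Q ^ 5 * H ≤ 0 := mul_nonpos_of_nonneg_of_nonpos h2.le (not_lt.1 h1)
    have h4 : 0 ≤ d * d := mul_self_nonneg d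
    exact h0 (le_antisymm h3 (by rw [hd]; exact h4))
  have hQ2 : Q ^ 2 ∣ d := by
    have : (Q ^ 2) ^ 2 ∣ d ^ 2 := ⟨Q * H, by rw [pow_two d, ← hd]; ring⟩
    exact (Int.pow_dvd_pow_iff two_ne_zero).1 this
  obtain ⟨e, rfl⟩ := hQ2
  have hQH : H * Q = e ^ 2 := by
    have h4 : (Q ^ 4) * (H * Q) = Q ^ 4 * e ^ 2 := by linear_combination hd
    exact mul_left_cancel₀ (pow_ne_zero 4 hQ.ne') h4
  obtain ⟨a, ha⟩ := Int.sq_of_isCoprime hc hQH
  obtain ⟨b, hb⟩ := Int.sq_of_isCoprime hc.symm ((mul_comm Q H).trans hQH)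
  refine ⟨a, b, ha.resolve_right fun h3 => ?_, hb.resolve_right fun h3 => ?_⟩
  · nlinarith [sq_nonneg a]
  · nlinarith [sq_nonneg b]

/-- **Irreducibility modulo `5`** of a semistable curve whose discriminant is a square. -/
theorem irreducible_five_of_isSquare {W : WeierstrassCurve ℤ} (hΔ : W.Δ ≠ 0)
    (hW : W.IsSemistableModel) (hsq : IsSquare W.Δ) : W.ModRepIsIrreducible 5 := by
  by_contra hcon
  obtain ⟨H, Q, X, hcop, hQ, hcases⟩ := LTF.Chain.integral_five W hΔ hW hcon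
  rcases hcases with ⟨h, -, hD⟩ | ⟨⟨H', rfl⟩, h, -, hD⟩
  · obtain ⟨a, b, rfl, rfl⟩ := squares_of_isSquare hcop hQ (hD ▸ hsq) (hD ▸ hΔ)
    have hb : b = 0 := by
      refine quartic_five _ a b X rfl
        ((IsCoprime.pow_iff (by norm_num) (by norm_num)).1 hcop) ?_
      rw [h]; ring
    rw [hb] at hQ
    norm_num at hQ
  · have hcop' : IsCoprime H' Q := hcop.of_mul_left_right
    have hD' : W.Δ = Q ^ 5 * H' := by
      have : 125 * W.Δ = 125 * (Q ^ 5 * H') := by rw [hD]; ring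
      linarith
    obtain ⟨a, b, rfl, rfl⟩ := squares_of_isSquare hcop' hQ (hD' ▸ hsq) (hD' ▸ hΔ)
    have h5 : (5 : ℤ) ∣ X := by
      have p5 : Prime (5 : ℤ) := by
        have := Nat.prime_iff_prime_int.1 Nat.prime_five
        exact_mod_cast this
      apply p5.dvd_of_dvd_pow (n := 2)
      exact ⟨625 * (a ^ 2) ^ 2 + 110 * a ^ 2 * b ^ 2 + 5 * (b ^ 2) ^ 2, by linarith⟩
    obtain ⟨Y, rfl⟩ := h5
    have ha : a = 0 := by
      refine quartic_five _ b a Y rfl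
        ((IsCoprime.pow_iff (by norm_num) (by norm_num)).1 hcop').symm ?_
      linarith
    rw [ha] at hD'
    norm_num at hD'
    exact hΔ hD'

/-- The representation of a Frey curve on the points of order `5` is irreducible. -/
theorem FreyTriple.irreducible_five {A B C : ℤ} (h : FreyTriple A B C) :
    (fA A B).ModRepIsIrreducible 5 := by
  refine irreducible_five_of_isSquare h.Δ_ne_zero h.isSemistableModel ?_
  obtain ⟨n, hn⟩ := h.sixteen
  have e := h.Δ_eq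
  refine ⟨A * n * C, ?_⟩
  rw [hn] at e
  rw [hn]
  linarith

/-- `SerreFrey 5` from the existence of the form for the Frey curves. -/
theorem serreFrey_five_of
    (hform : ∀ W : WeierstrassCurve ℤ, W.Δ ≠ 0 → W.IsSemistableModel →
      W.ModRepIsIrreducible 5 → ∃ f : CuspForm (Gamma0
        (∏ q ∈ W.Δ.natAbs.primeFactors with ¬ 5 ∣ padicValInt q W.Δ, q)) 2, f ≠ 0) :
    SerreFrey 5 :=
  serreFrey_of_irreducible Nat.prime_five (by norm_num) (fun _ _ _ h => h.irreducible_five) hform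

end Fermat.Agent.Cor
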