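import Fermat.Agent.Corollaries.K4.Five
import Fermat.Agent.Corollaries.K4.Equations
import Fermat.Agent.Corollaries.LevelLower

/-!
# Corollaries, K4: the equations of Serre and Ribet for the exponent `5`
-/

set_option autoImplicit false

open WeierstrassCurve CongruenceSubgroup

namespace Fermat.Agent.Cor

/-- **The exponent `5`**: the Frey curve of every coprime triple `A + B + C = 0` with `16 ∣ A B C`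
gives a cusp form of weight two and level `freyLevel 5 (A B C)`. -/
theorem serreFrey_five : SerreFrey 5 :=
  serreFrey_five_of fun _ hΔ hW hirr =>
    exists_form_serre hΔ hW Nat.prime_five (by norm_num) hirr

/-- `± 2 ^ k₁ L ^ m₁ x ^ 5 ± 2 ^ k₂ L ^ m₂ y ^ 5 ± 2 ^ k₃ L ^ m₃ z ^ 5 ≠ 0`, `L = 1, 3, 5`. -/
theorem three_terms_five {L : ℕ} (hL : L = 1 ∨ L = 3 ∨ L = 5) {k₁ k₂ k₃ m₁ m₂ m₃ : ℕ}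
    (hk : ∀ r : ℕ, r = 1 ∨ r = 2 ∨ r = 3 →
      ¬ (k₁ % 5 = (r + k₂) % 5 ∧ k₂ % 5 = k₃ % 5) ∧
      ¬ (k₂ % 5 = (r + k₁) % 5 ∧ k₁ % 5 = k₃ % 5) ∧
      ¬ (k₃ % 5 = (r + k₁) % 5 ∧ k₁ % 5 = k₂ % 5))
    {x y z : ℤ} (hx : x ≠ 0) (hy : y ≠ 0) (hz : z ≠ 0) :
    2 ^ k₁ * (L : ℤ) ^ m₁ * x ^ 5 + 2 ^ k₂ * (L : ℤ) ^ m₂ * y ^ 5 +
      2 ^ k₃ * (L : ℤ) ^ m₃ * z ^ 5 ≠ 0 :=
  three_terms serreFrey_five hL hk hx hy hz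

/-- `x ^ 5 + y ^ 5 ≠ 2 ^ k L ^ m z ^ 5`, `L = 1, 3, 5`, `k ≡ 0, 4 mod 5`. -/
theorem serre_equation_five {L : ℕ} (hL : L = 1 ∨ L = 3 ∨ L = 5) {k m : ℕ}
    (hk : k % 5 ≠ 1 ∧ k % 5 ≠ 2 ∧ k % 5 ≠ 3) {x y z : ℤ} (hx : x ≠ 0) (hy : y ≠ 0)
    (hz : z ≠ 0) : x ^ 5 + y ^ 5 ≠ 2 ^ k * (L : ℤ) ^ m * z ^ 5 :=
  serre_equation (by norm_num) (by decide) serreFrey_five hL hk hx hy hz

/-- `x ^ 5 + y ^ 5 ≠ L ^ m z ^ 5`, `L = 1, 3, 5`. -/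
theorem serre_equation_odd_five {L : ℕ} (hL : L = 1 ∨ L = 3 ∨ L = 5) {m : ℕ} {x y z : ℤ}
    (hx : x ≠ 0) (hy : y ≠ 0) (hz : z ≠ 0) : x ^ 5 + y ^ 5 ≠ (L : ℤ) ^ m * z ^ 5 :=
  serre_equation_odd (by norm_num) (by decide) serreFrey_five hL hx hy hz

/-- `x ^ 5 + y ^ 5 ≠ 2 ^ k L ^ m z ^ 5`, `L = 1, 3, 5, 7, 13`, `k ≡ 4 mod 5`. -/
theorem serre_equation_four_five {L : ℕ} (hL : L = 1 ∨ L = 3 ∨ L = 5 ∨ L = 7 ∨ L = 13)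
    {k m : ℕ} (hk : k % 5 = 4) {x y z : ℤ} (hx : x ≠ 0) (hy : y ≠ 0) (hz : z ≠ 0) :
    x ^ 5 + y ^ 5 ≠ 2 ^ k * (L : ℤ) ^ m * z ^ 5 :=
  serre_equation_four (by norm_num) serreFrey_five hL hk hx hy hz

/-- `x ^ 5 + 2 ^ k y ^ 5 + z ^ 5 ≠ 0`, `k ≡ 0, 4 mod 5`. -/
theorem ribet_equation_five {k : ℕ} (hk : k % 5 ≠ 1 ∧ k % 5 ≠ 2 ∧ k % 5 ≠ 3) {x y z : ℤ}
    (hx : x ≠ 0) (hy : y ≠ 0) (hz : z ≠ 0) : x ^ 5 + 2 ^ k * y ^ 5 + z ^ 5 ≠ 0 :=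
  ribet_equation (by norm_num) serreFrey_five hk hx hy hz

/-- If `A + B + C = 0` are non-zero, coprime and `16 ∣ A B C`, then for `L = 1, 3, 5` some prime
`q ≠ 2, L` has `5 ∤ v_q(A B C)`. -/
theorem exists_prime_not_dvd_five {L : ℕ} (hL : L = 1 ∨ L = 3 ∨ L = 5) {A B C : ℤ}
    (hA : A ≠ 0) (hB : B ≠ 0) (hC : C ≠ 0) (hsum : A + B + C = 0) (hcop : IsCoprime A B)
    (h16 : (16 : ℤ) ∣ A * B * C) :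
    ∃ q : ℕ, q.Prime ∧ q ≠ 2 ∧ q ≠ L ∧ ¬ 5 ∣ padicValInt q (A * B * C) :=
  exists_prime_not_dvd serreFrey_five hL hA hB hC hsum hcop h16

end Fermat.Agent.Cor
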